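import Mathlib
import Fermat.Prelude.Def_GaloisRep_DeformationRingData
import Fermat.Prelude.Def_GaloisRep_DeformationCondition

set_option autoImplicit false

namespace Fermat.Agent.DefRing

open IsLocalRing Matrix
open scoped TensorProduct

/-- absolute Galois group of the rationals -/
abbrev GQ : Type := AlgebraicClosure ℚ ≃ₐ[ℚ] AlgebraicClosure ℚ

/-- adic continuity for a matrix representation -/
def MatCont {A : Type} [CommRing A] [IsLocalRing A] (r : GQ →* Matrix (Fin 2) (Fin 2) A) : Prop :=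
  ∀ n : ℕ, ∃ L : IntermediateField ℚ (AlgebraicClosure ℚ), FiniteDimensional ℚ L ∧
    ∀ σ : GQ, (∀ x ∈ L, σ x = x) →
      ∀ i j, (r σ - (1 : Matrix (Fin 2) (Fin 2) A)) i j ∈ maximalIdeal A ^ n

lemma mem_smul_top_pi {A : Type} [CommRing A] (I : Ideal A) {n : ℕ} (v : Fin n → A) :
    v ∈ I • (⊤ : Submodule A (Fin n → A)) ↔ ∀ i, v i ∈ I := by
  constructor
  · intro h i
    refine Submodule.smul_induction_on (p := fun v : Fin n → A => v i ∈ I) h ?_ ?_
    · intro a ha w _
      exact I.mul_mem_right _ ha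
    · intro x y hx hy
      exact I.add_mem hx hy
  · intro h
    have : v = ∑ i, v i • (Pi.single i 1 : Fin n → A) := by
      ext j
      simp [Finset.sum_apply, Pi.single_apply]
    rw [this]
    exact Submodule.sum_mem _ fun i _ => Submodule.smul_mem_smul (h i) Submodule.mem_top

/-- the adic Galois representation attached to a matrix representation -/
noncomputable def ofMat {A : Type} [CommRing A] [IsLocalRing A]
    (r : GQ →* Matrix (Fin 2) (Fin 2) A) (hr : MatCont r) : GaloisRepAdic A where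
  V := Fin 2 → A
  finrank_eq := by simp
  ρ :=
    { toFun := fun σ => Matrix.mulVecLin (r σ)
      map_one' := by rw [map_one, Matrix.mulVecLin_one]; rfl
      map_mul' := fun σ τ => by rw [map_mul, Matrix.mulVecLin_mul]; rfl }
  isAdicContinuous := by
    intro n
    obtain ⟨L, hL, h1⟩ := hr n
    refine ⟨L, hL, fun σ hσ v => ?_⟩
    have : Matrix.mulVecLin (r σ) v - v = (r σ - 1) *ᵥ v := by
      rw [Matrix.sub_mulVec, Matrix.one_mulVec]
      rfl
    show Matrix.mulVecLin (r σ) v - v ∈ _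
    rw [this, mem_smul_top_pi]
    intro i
    rw [Matrix.mulVec, dotProduct]
    exact Ideal.sum_mem _ fun j _ => Ideal.mul_mem_right _ _ (h1 σ hσ i j)

lemma ofMat_apply {A : Type} [CommRing A] [IsLocalRing A]
    (r : GQ →* Matrix (Fin 2) (Fin 2) A) (hr : MatCont r) (σ : GQ) (v : Fin 2 → A) :
    (ofMat r hr).ρ σ v = r σ *ᵥ v := rfl

/-- matrix of a Galois representation in a basis -/
noncomputable def toMatRep {A : Type} [CommRing A] [IsLocalRing A] (ρ : GaloisRepAdic A)
    (b : Module.Basis (Fin 2) A ρ.V) : GQ →* Matrix (Fin 2) (Fin 2) A :=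
  ((LinearMap.toMatrixAlgEquiv b : _ ≃ₐ[A] _) : _ →* _).comp ρ.ρ

lemma toMatRep_apply {A : Type} [CommRing A] [IsLocalRing A] (ρ : GaloisRepAdic A)
    (b : Module.Basis (Fin 2) A ρ.V) (σ : GQ) :
    toMatRep ρ b σ = LinearMap.toMatrix b b (ρ.ρ σ) := rfl

lemma toMatRep_cont {A : Type} [CommRing A] [IsLocalRing A] (ρ : GaloisRepAdic A)
    (b : Module.Basis (Fin 2) A ρ.V) : MatCont (toMatRep ρ b) := by
  intro n
  obtain ⟨L, hL, h1⟩ := ρ.isAdicContinuous n
  refine ⟨L, hL, fun σ hσ i j => ?_⟩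
  rw [toMatRep_apply, Matrix.sub_apply, LinearMap.toMatrix_apply, Matrix.one_apply]
  have h := h1 σ hσ (b j)
  have key : ∀ w ∈ (maximalIdeal A ^ n) • (⊤ : Submodule A ρ.V), b.repr w i ∈ maximalIdeal A ^ n := by
    intro w hw
    refine Submodule.smul_induction_on (p := fun w => b.repr w i ∈ maximalIdeal A ^ n) hw ?_ ?_
    · intro a ha w _
      simpa using Ideal.mul_mem_right _ _ ha
    · intro x y hx hy
      simpa using Ideal.add_mem _ hx hy
  have := key _ h
  simpa [Finsupp.single_apply, eq_comm] using this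

/-- any representation is isomorphic to its matrix form -/
lemma isEquiv_toMatRep {A : Type} [CommRing A] [IsLocalRing A] (ρ : GaloisRepAdic A)
    (b : Module.Basis (Fin 2) A ρ.V) : ρ.IsEquiv (ofMat (toMatRep ρ b) (toMatRep_cont ρ b)) := by
  refine ⟨{ toLinearEquiv := b.equivFun, map_apply := fun σ x => ?_ }⟩
  have := LinearMap.toMatrix_mulVec_repr b b (ρ.ρ σ) x
  exact this.symm

lemma MatCont.conj {A : Type} [CommRing A] [IsLocalRing A]
    {r r' : GQ →* Matrix (Fin 2) (Fin 2) A} (hr : MatCont r)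
    (M N : Matrix (Fin 2) (Fin 2) A) (hMN : M * N = 1) (h : ∀ σ, r' σ = M * r σ * N) :
    MatCont r' := by
  intro n
  obtain ⟨L, hL, h1⟩ := hr n
  refine ⟨L, hL, fun σ hσ i j => ?_⟩
  have : r' σ - 1 = M * (r σ - 1) * N := by
    rw [h σ, Matrix.mul_sub, Matrix.sub_mul, Matrix.mul_one, hMN]
  rw [this, Matrix.mul_apply]
  refine Ideal.sum_mem _ fun k _ => Ideal.mul_mem_right _ _ ?_
  rw [Matrix.mul_apply]
  exact Ideal.sum_mem _ fun l _ => Ideal.mul_mem_left _ _ (h1 σ hσ l k)

/-- conjugate matrix representations are isomorphic -/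
lemma isEquiv_ofMat_conj {A : Type} [CommRing A] [IsLocalRing A]
    {r r' : GQ →* Matrix (Fin 2) (Fin 2) A} (hr : MatCont r) (hr' : MatCont r')
    (M N : Matrix (Fin 2) (Fin 2) A) (hMN : M * N = 1) (h : ∀ σ, r' σ = M * r σ * N) :
    (ofMat r hr).IsEquiv (ofMat r' hr') := by
  have hNM : N * M = 1 := mul_eq_one_comm.mp hMN
  refine ⟨{ toLinearEquiv := Matrix.toLin'OfInv hNM hMN, map_apply := fun σ x => ?_ }⟩
  change M *ᵥ (r σ *ᵥ (show Fin 2 → A from x)) = r' σ *ᵥ (M *ᵥ (show Fin 2 → A from x))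
  rw [h σ, Matrix.mulVec_mulVec, Matrix.mulVec_mulVec, Matrix.mul_assoc, Matrix.mul_assoc,
    hNM, Matrix.mul_one]

/-- isomorphic matrix representations are conjugate -/
lemma exists_conj_of_isEquiv {A : Type} [CommRing A] [IsLocalRing A]
    {r r' : GQ →* Matrix (Fin 2) (Fin 2) A} {hr : MatCont r} {hr' : MatCont r'}
    (h : (ofMat r hr).IsEquiv (ofMat r' hr')) :
    ∃ M N : Matrix (Fin 2) (Fin 2) A, M * N = 1 ∧ N * M = 1 ∧ ∀ σ, M * r σ = r' σ * M := by
  obtain ⟨e⟩ := h
  let f : (Fin 2 → A) ≃ₗ[A] (Fin 2 → A) := e.toLinearEquiv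
  have hf : ∀ σ x, f (r σ *ᵥ x) = r' σ *ᵥ (f x) := e.map_apply
  refine ⟨LinearMap.toMatrix' f.toLinearMap, LinearMap.toMatrix' f.symm.toLinearMap, ?_, ?_, ?_⟩
  · rw [← LinearMap.toMatrix'_comp]; simp
  · rw [← LinearMap.toMatrix'_comp]; simp
  · intro σ
    apply Matrix.toLin'.injective
    ext x : 1
    rw [Matrix.toLin'_mul, Matrix.toLin'_mul, Matrix.toLin'_toMatrix']
    ext y
    simp only [LinearMap.comp_apply, Matrix.toLin'_apply]
    have := hf σ (Pi.single x 1)
    simp_all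

/-- two adic representations with the same matrices are isomorphic -/
lemma isEquiv_of_toMatrix_eq {A : Type} [CommRing A] [IsLocalRing A] (ρ₁ ρ₂ : GaloisRepAdic A)
    (b₁ : Module.Basis (Fin 2) A ρ₁.V) (b₂ : Module.Basis (Fin 2) A ρ₂.V)
    (h : ∀ σ, LinearMap.toMatrix b₁ b₁ (ρ₁.ρ σ) = LinearMap.toMatrix b₂ b₂ (ρ₂.ρ σ)) :
    ρ₁.IsEquiv ρ₂ := by
  refine ⟨{ toLinearEquiv := b₁.equiv b₂ (Equiv.refl _), map_apply := fun σ x => ?_ }⟩
  have key : (b₁.equiv b₂ (Equiv.refl _)).toLinearMap ∘ₗ (ρ₁.ρ σ) =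
      (ρ₂.ρ σ) ∘ₗ (b₁.equiv b₂ (Equiv.refl _)).toLinearMap := by
    apply b₁.ext
    intro i
    simp only [LinearMap.comp_apply, LinearEquiv.coe_coe, Module.Basis.equiv_apply,
      Equiv.refl_apply]
    apply b₂.ext_elem
    intro j
    have h1 := congrFun (congrFun (h σ) j) i
    rw [LinearMap.toMatrix_apply, LinearMap.toMatrix_apply] at h1
    rw [← h1]
    simp [Module.Basis.equiv]
  exact LinearMap.congr_fun key x

lemma residual_isEquiv_of_toMatrix_eq {k : Type} [Field k] (ρ₁ ρ₂ : ResidualGaloisRep k)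
    (b₁ : Module.Basis (Fin 2) k ρ₁.V) (b₂ : Module.Basis (Fin 2) k ρ₂.V)
    (h : ∀ σ, LinearMap.toMatrix b₁ b₁ (ρ₁.ρ σ) = LinearMap.toMatrix b₂ b₂ (ρ₂.ρ σ)) :
    ρ₁.IsEquiv ρ₂ := by
  refine ⟨{ toLinearEquiv := b₁.equiv b₂ (Equiv.refl _), map_apply := fun σ x => ?_ }⟩
  have key : (b₁.equiv b₂ (Equiv.refl _)).toLinearMap ∘ₗ (ρ₁.ρ σ) =
      (ρ₂.ρ σ) ∘ₗ (b₁.equiv b₂ (Equiv.refl _)).toLinearMap := by
    apply b₁.ext
    intro i
    simp only [LinearMap.comp_apply, LinearEquiv.coe_coe, Module.Basis.equiv_apply,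
      Equiv.refl_apply]
    apply b₂.ext_elem
    intro j
    have h1 := congrFun (congrFun (h σ) j) i
    rw [LinearMap.toMatrix_apply, LinearMap.toMatrix_apply] at h1
    rw [← h1]
    simp [Module.Basis.equiv]
  exact LinearMap.congr_fun key x

/-- apply a ring homomorphism to a matrix representation -/
noncomputable def mapMat {A B : Type} [CommRing A] [CommRing B] (φ : A →+* B)
    (r : GQ →* Matrix (Fin 2) (Fin 2) A) : GQ →* Matrix (Fin 2) (Fin 2) B :=
  (φ.mapMatrix (m := Fin 2)).toMonoidHom.comp r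

lemma mapMat_apply {A B : Type} [CommRing A] [CommRing B] (φ : A →+* B)
    (r : GQ →* Matrix (Fin 2) (Fin 2) A) (σ : GQ) : mapMat φ r σ = (r σ).map φ := rfl

lemma MatCont.mapMat {A B : Type} [CommRing A] [CommRing B] [IsLocalRing A] [IsLocalRing B]
    (φ : A →+* B) (hφ : IsLocalHom φ) {r : GQ →* Matrix (Fin 2) (Fin 2) A} (hr : MatCont r) :
    MatCont (mapMat φ r) := by
  intro n
  obtain ⟨L, hL, h1⟩ := hr n
  refine ⟨L, hL, fun σ hσ i j => ?_⟩
  have hmap : (maximalIdeal A ^ n).map φ ≤ maximalIdeal B ^ n := by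
    rw [Ideal.map_pow]
    exact Ideal.pow_right_mono (Ideal.map_le_iff_le_comap.mpr fun a ha =>
      Ideal.mem_comap.mpr (map_nonunit φ a ha)) n
  have h2 := hmap (Ideal.mem_map_of_mem φ (h1 σ hσ i j))
  convert h2 using 1
  rw [mapMat_apply, Matrix.sub_apply, Matrix.sub_apply, Matrix.map_apply, map_sub]
  congr 1
  rw [Matrix.one_apply, Matrix.one_apply]
  split_ifs <;> simp

/-- base change of a matrix representation -/
lemma isEquiv_baseChange_ofMat {A B : Type} [CommRing A] [CommRing B] [IsLocalRing A]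
    [IsLocalRing B] (φ : A →+* B) (hφ : IsLocalHom φ) {r : GQ →* Matrix (Fin 2) (Fin 2) A}
    (hr : MatCont r) :
    ((ofMat r hr).baseChangeAlong φ hφ).IsEquiv (ofMat (mapMat φ r) (hr.mapMat φ hφ)) := by
  let _ : Algebra A B := φ.toAlgebra
  refine isEquiv_of_toMatrix_eq _ _
    (Algebra.TensorProduct.basis B (Pi.basisFun A (Fin 2)) : Module.Basis (Fin 2) B (B ⊗[A] (Fin 2 → A)))
    (Pi.basisFun B (Fin 2) : Module.Basis (Fin 2) B (Fin 2 → B)) ?_
  intro σ
  have h1 := LinearMap.toMatrix_baseChange B (Matrix.mulVecLin (r σ))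
    (Pi.basisFun A (Fin 2)) (Pi.basisFun A (Fin 2))
  refine h1.trans ?_
  ext i j
  simp only [LinearMap.toMatrix_apply, Matrix.map_apply]
  change φ ((r σ *ᵥ (Pi.basisFun A (Fin 2)) j) i) = ((mapMat φ r σ) *ᵥ (Pi.basisFun B (Fin 2)) j) i
  simp [mapMat_apply]

/-- the matrix of the residual representation -/
lemma residual_toMatrix {A : Type} [CommRing A] [IsLocalRing A] (ρ : GaloisRepAdic A)
    (b : Module.Basis (Fin 2) A ρ.V) (σ : GQ) :
    LinearMap.toMatrix
      (Algebra.TensorProduct.basis (ResidueField A) b :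
        Module.Basis (Fin 2) (ResidueField A) ρ.residual.V)
      (Algebra.TensorProduct.basis (ResidueField A) b :
        Module.Basis (Fin 2) (ResidueField A) ρ.residual.V) (ρ.residual.ρ σ) =
      (toMatRep ρ b σ).map (residue A) :=
  LinearMap.toMatrix_baseChange (ResidueField A) (ρ.ρ σ) b b

/-- the matrix of the base changed residual representation -/
lemma residual_baseChange_toMatrix {k k' : Type} [Field k] [Field k'] (ψ : k →+* k')
    (ρ : ResidualGaloisRep k) (b : Module.Basis (Fin 2) k ρ.V) :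
    ∃ b' : Module.Basis (Fin 2) k' (ρ.baseChangeAlong ψ).V, ∀ σ,
    LinearMap.toMatrix b' b' ((ρ.baseChangeAlong ψ).ρ σ) =
      (LinearMap.toMatrix b b (ρ.ρ σ)).map ψ := by
  let _ : Algebra k k' := ψ.toAlgebra
  exact ⟨(Algebra.TensorProduct.basis k' b : Module.Basis (Fin 2) k' (k' ⊗[k] ρ.V)),
    fun σ => LinearMap.toMatrix_baseChange k' (ρ.ρ σ) b b⟩

/-- lifting a basis of the residual representation -/
lemma exists_basis_lift {A : Type} [CommRing A] [IsLocalRing A] (ρ : GaloisRepAdic A)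
    (c : Module.Basis (Fin 2) (ResidueField A) ρ.residual.V) :
    ∃ b : Module.Basis (Fin 2) A ρ.V,
      (Algebra.TensorProduct.basis (ResidueField A) b :
        Module.Basis (Fin 2) (ResidueField A) ρ.residual.V) = c := by
  have hsurj : Function.Surjective (TensorProduct.mk A (ResidueField A) ρ.V 1) :=
    TensorProduct.mk_surjective A ρ.V (ResidueField A) Ideal.Quotient.mk_surjective
  choose v hv using fun i => hsurj (c i)
  have hv' : TensorProduct.mk A (ResidueField A) ρ.V 1 ∘ v = c := funext hv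
  have : Module.FinitePresentation A ρ.V := Module.finitePresentation_of_projective A ρ.V
  obtain ⟨b, hb⟩ := Module.exists_basis_of_basis_baseChange (R := A) v
    (by rw [hv']; exact c.linearIndependent) (by rw [hv']; exact c.span_eq)
    (Module.Flat.rTensor_preserves_injective_linearMap _ Subtype.val_injective)
  refine ⟨b, ?_⟩
  apply Module.Basis.eq_of_apply_eq
  intro i
  rw [Algebra.TensorProduct.basis_apply, hb i]
  exact hv i

lemma toMatrix_map_symm {k V V' : Type} [Field k] [AddCommGroup V] [Module k V]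
    [AddCommGroup V'] [Module k V'] (e : V ≃ₗ[k] V') (f : V →ₗ[k] V) (f' : V' →ₗ[k] V')
    (h : ∀ x, e (f x) = f' (e x)) (b' : Module.Basis (Fin 2) k V') :
    LinearMap.toMatrix (b'.map e.symm) (b'.map e.symm) f = LinearMap.toMatrix b' b' f' := by
  ext i j
  rw [LinearMap.toMatrix_apply, LinearMap.toMatrix_apply]
  simp only [Module.Basis.map_repr, Module.Basis.map_apply, LinearEquiv.trans_apply,
    LinearEquiv.symm_symm]
  rw [h, LinearEquiv.apply_symm_apply]

/-- from an isomorphism of residual representations, get a basis with prescribed reduction -/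
lemma exists_basis_of_residual_isEquiv {k A : Type} [Field k] [CommRing A] [IsLocalRing A]
    (ψ : k →+* ResidueField A) (ρbar : ResidualGaloisRep k) (b : Module.Basis (Fin 2) k ρbar.V)
    (ρ : GaloisRepAdic A) (h : ρ.residual.IsEquiv (ρbar.baseChangeAlong ψ)) :
    ∃ c : Module.Basis (Fin 2) A ρ.V, ∀ σ,
      (toMatRep ρ c σ).map (residue A) = (LinearMap.toMatrix b b (ρbar.ρ σ)).map ψ := by
  obtain ⟨b', hb'⟩ := residual_baseChange_toMatrix ψ ρbar b
  obtain ⟨e⟩ := h
  obtain ⟨c, hc⟩ := exists_basis_lift ρ (b'.map e.toLinearEquiv.symm)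
  refine ⟨c, fun σ => ?_⟩
  rw [← residual_toMatrix, hc, ← hb' σ]
  exact toMatrix_map_symm e.toLinearEquiv _ _ (e.map_apply σ) b'

lemma residual_isEquiv_of_map_eq {k A : Type} [Field k] [CommRing A] [IsLocalRing A]
    (ψ : k →+* ResidueField A) (ρbar : ResidualGaloisRep k) (b : Module.Basis (Fin 2) k ρbar.V)
    (ρ : GaloisRepAdic A) (c : Module.Basis (Fin 2) A ρ.V)
    (h : ∀ σ, (toMatRep ρ c σ).map (residue A) = (LinearMap.toMatrix b b (ρbar.ρ σ)).map ψ) :
    ρ.residual.IsEquiv (ρbar.baseChangeAlong ψ) := by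
  obtain ⟨b', hb'⟩ := residual_baseChange_toMatrix ψ ρbar b
  refine residual_isEquiv_of_toMatrix_eq _ _ (Algebra.TensorProduct.basis (ResidueField A) c :
        Module.Basis (Fin 2) (ResidueField A) ρ.residual.V) b' ?_
  intro σ
  exact (residual_toMatrix ρ c σ).trans ((h σ).trans (hb' σ).symm)

lemma toMatRep_ofMat {A : Type} [CommRing A] [IsLocalRing A]
    (r : GQ →* Matrix (Fin 2) (Fin 2) A) (hr : MatCont r) :
    toMatRep (ofMat r hr) (Pi.basisFun A (Fin 2) : Module.Basis (Fin 2) A (Fin 2 → A)) = r := by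
  ext σ i j
  have : toMatRep (ofMat r hr) (Pi.basisFun A (Fin 2) : Module.Basis (Fin 2) A (Fin 2 → A)) σ =
    LinearMap.toMatrix' (Matrix.mulVecLin (r σ)) := rfl
  rw [this]
  simp

lemma residual_ofMat_isEquiv {k A : Type} [Field k] [CommRing A] [IsLocalRing A]
    (ψ : k →+* ResidueField A) (ρbar : ResidualGaloisRep k) (b : Module.Basis (Fin 2) k ρbar.V)
    (r : GQ →* Matrix (Fin 2) (Fin 2) A) (hr : MatCont r)
    (h : ∀ σ, (r σ).map (residue A) = (LinearMap.toMatrix b b (ρbar.ρ σ)).map ψ) :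
    (ofMat r hr).residual.IsEquiv (ρbar.baseChangeAlong ψ) :=
  residual_isEquiv_of_map_eq ψ ρbar b (ofMat r hr)
    (Pi.basisFun A (Fin 2) : Module.Basis (Fin 2) A (Fin 2 → A))
    (fun σ => by rw [toMatRep_ofMat]; exact h σ)

end Fermat.Agent.DefRing
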