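import Fermat.Agent.DefRing.Basic

set_option autoImplicit false

namespace Fermat.Agent.DefRing

open IsLocalRing Matrix
open scoped TensorProduct

/-- Burnside's theorem on matrix algebras -/
theorem adjoin_eq_top_of_irreducible {K V : Type} [Field K] [IsAlgClosed K] [AddCommGroup V]
    [Module K V] [FiniteDimensional K V] [Nontrivial V] (S : Set (Module.End K V))
    (hS : ∀ W : Submodule K V, (∀ f ∈ S, ∀ x ∈ W, f x ∈ W) → W = ⊥ ∨ W = ⊤) :
    Algebra.adjoin K S = ⊤ := by
  set E := Algebra.adjoin K S with hE
  have hsimple : IsSimpleModule E V := by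
    rw [isSimpleModule_iff]
    refine { exists_pair_ne := ⟨⊥, ⊤, bot_ne_top⟩, eq_bot_or_eq_top := fun W => ?_ }
    have := hS (W.restrictScalars K) (fun f hf x hx =>
      W.smul_mem (⟨f, Algebra.subset_adjoin hf⟩ : E) hx)
    rcases this with h | h
    · left
      rwa [Submodule.restrictScalars_eq_bot_iff] at h
    · right
      rwa [Submodule.restrictScalars_eq_top_iff] at h
  have hschur := IsSimpleModule.algebraMap_end_bijective_of_isAlgClosed (A := E) (V := V) K
  have hfin : Module.Finite (Module.End E V) V := by
    refine Module.Finite.of_restrictScalars_finite K (Module.End E V) V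
  have hsurj := Module.Finite.toModuleEnd_moduleEnd_surjective (R := E) (M := V)
  rw [eq_top_iff]
  intro f _
  let f' : Module.End (Module.End E V) V :=
    { toFun := f
      map_add' := f.map_add
      map_smul' := by
        intro g x
        obtain ⟨c, rfl⟩ := hschur.2 g
        simp only [Module.algebraMap_end_eq_smul_id, Module.End.smul_def, LinearMap.smul_apply,
          LinearMap.id_apply, map_smul, RingHom.id_apply] }
  obtain ⟨e, he⟩ := hsurj f'
  have : f = (e : Module.End K V) := by
    ext x
    exact (LinearMap.congr_fun he x).symm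
  rw [this]
  exact e.2

theorem span_eq_top_of_absIrr {k : Type} [Field k] (ρ : ResidualGaloisRep k)
    (h : ρ.IsAbsolutelyIrreducible) (b : Module.Basis (Fin 2) k ρ.V) :
    Submodule.span k (Set.range fun σ => LinearMap.toMatrix b b (ρ.ρ σ)) = ⊤ := by
  classical
  let K := AlgebraicClosure k
  let M := K ⊗[k] ρ.V
  let ρK : GQ →* Module.End K M := (ρ.baseChange K).ρ
  have hfr : Module.finrank K M = 2 := (ρ.baseChange K).finrank_eq
  have : Nontrivial M := Module.nontrivial_of_finrank_pos (R := K) (by rw [hfr]; norm_num)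
  have hadj : Algebra.adjoin K (Set.range ρK) = ⊤ := by
    apply adjoin_eq_top_of_irreducible
    intro W hW
    exact h W fun σ x hx => hW _ ⟨σ, rfl⟩ x hx
  have hspan : Submodule.span K (Set.range ρK) = ⊤ := by
    have h1 : (Set.range ρK) = ((MonoidHom.mrange ρK : Submonoid (Module.End K M)) :
      Set (Module.End K M)) := by simp
    have h2 := Algebra.adjoin_eq_span K (Set.range ρK)
    have h3 : Submonoid.closure (Set.range ρK) = MonoidHom.mrange ρK := by
      rw [h1, Submonoid.closure_eq]
    rw [h3, ← h1] at h2
    rw [← h2, hadj]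
    rfl
  by_contra hne
  obtain ⟨f, hf0, hf⟩ := Submodule.exists_dual_map_eq_bot_of_lt_top (lt_top_iff_ne_top.mpr hne)
    inferInstance
  -- the functional `f` in coordinates
  have hfc : ∀ X : Matrix (Fin 2) (Fin 2) k, f X = ∑ i, ∑ j, X i j * f (Matrix.single i j 1) := by
    intro X
    conv_lhs => rw [Matrix.matrix_eq_sum_single X]
    simp only [map_sum]
    refine Finset.sum_congr rfl fun i _ => Finset.sum_congr rfl fun j _ => ?_
    have : Matrix.single i j (X i j) = X i j • Matrix.single i j (1 : k) := by
      rw [Matrix.smul_single]; simp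
    rw [this, map_smul, smul_eq_mul]
  have hf' : ∀ σ, ∑ i, ∑ j, (LinearMap.toMatrix b b (ρ.ρ σ)) i j * f (Matrix.single i j 1) = 0 := by
    intro σ
    rw [← hfc]
    have : f (LinearMap.toMatrix b b (ρ.ρ σ)) ∈ (Submodule.span k
      (Set.range fun σ => LinearMap.toMatrix b b (ρ.ρ σ))).map f :=
      Submodule.mem_map_of_mem (Submodule.subset_span ⟨σ, rfl⟩)
    rw [hf] at this
    exact (Submodule.mem_bot k).1 this
  let bK : Module.Basis (Fin 2) K M := Algebra.TensorProduct.basis K b
  let F : Module.End K M →ₗ[K] K :=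
    ∑ i, ∑ j, (algebraMap k K (f (Matrix.single i j 1))) •
      ((Matrix.entryLinearMap K K i j) ∘ₗ (LinearMap.toMatrix bK bK).toLinearMap)
  have hF : ∀ g, F g = ∑ i, ∑ j, (algebraMap k K (f (Matrix.single i j 1))) *
      (LinearMap.toMatrix bK bK g) i j := by
    intro g
    simp [F, Algebra.smul_def]
  have hF0 : F = 0 := by
    have : Set.EqOn F (0 : Module.End K M →ₗ[K] K) (Set.range ρK) := by
      rintro _ ⟨σ, rfl⟩
      rw [hF]
      have h1 : LinearMap.toMatrix bK bK (ρK σ) = (LinearMap.toMatrix b b (ρ.ρ σ)).map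
        (algebraMap k K) := LinearMap.toMatrix_baseChange K (ρ.ρ σ) b b
      rw [h1]
      have h2 := congrArg (algebraMap k K) (hf' σ)
      rw [map_sum, map_zero] at h2
      refine Eq.trans ?_ h2
      refine Finset.sum_congr rfl fun i _ => ?_
      rw [map_sum]
      refine Finset.sum_congr rfl fun j _ => ?_
      rw [map_mul, Matrix.map_apply, mul_comm]
    exact LinearMap.ext_on_range hspan fun σ => this ⟨σ, rfl⟩
  apply hf0
  suffices hzero : ∀ i j, f (Matrix.single i j 1) = 0 by
    refine LinearMap.ext fun X => ?_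
    rw [hfc X]
    simp [hzero]
  intro i j
  have h1 := LinearMap.congr_fun hF0 ((LinearMap.toMatrix bK bK).symm (Matrix.single i j 1))
  rw [hF] at h1
  rw [LinearEquiv.apply_symm_apply] at h1
  simp only [LinearMap.zero_apply] at h1
  have h2 : algebraMap k K (f (Matrix.single i j 1)) = 0 := by
    rw [Finset.sum_eq_single i, Finset.sum_eq_single j] at h1
    · simpa using h1
    · intro j' _ hj'
      simp [Matrix.single_apply, hj'.symm]
    · simp
    · intro i' _ hi'
      refine Finset.sum_eq_zero fun j' _ => ?_
      simp [Matrix.single_apply, hi'.symm]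
    · simp
  apply (algebraMap k K).injective
  rw [h2, map_zero]

end Fermat.Agent.DefRing
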