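import Mathlib

set_option autoImplicit false

namespace Fermat.Agent.DefRing

open IsLocalRing

/-- precompleteness passes to quotients -/
lemma isPrecomplete_of_surjective {R M N : Type*} [CommRing R] (I : Ideal R) [AddCommGroup M]
    [Module R M] [AddCommGroup N] [Module R N] (f : M →ₗ[R] N) (hf : Function.Surjective f)
    [IsPrecomplete I M] : IsPrecomplete I N := by
  rw [← AdicCompletion.of_surjective_iff]
  intro y
  obtain ⟨x, hx⟩ := AdicCompletion.map_surjective I hf y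
  obtain ⟨z, hz⟩ := AdicCompletion.of_surjective I M x
  exact ⟨f z, by rw [← hx, ← hz, AdicCompletion.map_of]⟩

section LimitRing

variable {Λ : Type*} [CommRing Λ] (𝔞 : Ideal Λ) (K : ℕ → Ideal Λ)

lemma limit_antitone (hK : ∀ m, K (m + 1) ⊔ 𝔞 ^ m = K m) : Antitone K :=
  antitone_nat_of_succ_le fun n => by rw [← hK n]; exact le_sup_left

theorem limit_sup_pow [IsPrecomplete 𝔞 Λ] (hK0 : ∀ m, 𝔞 ^ m ≤ K m)
    (hK : ∀ m, K (m + 1) ⊔ 𝔞 ^ m = K m) (m : ℕ) : (⨅ j, K j) ⊔ 𝔞 ^ m = K m := by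
  refine le_antisymm (sup_le (iInf_le _ _) (hK0 m)) ?_
  intro a ha
  have hanti := limit_antitone 𝔞 K hK
  -- the recursive construction
  have hstep : ∀ j : ℕ, ∀ x : K (m + j), ∃ y : K (m + (j + 1)), (y : Λ) - x ∈ 𝔞 ^ (m + j) := by
    intro j x
    have hx : (x : Λ) ∈ K (m + j + 1) ⊔ 𝔞 ^ (m + j) := by rw [hK]; exact x.2
    obtain ⟨y, hy, z, hz, hyz⟩ := Submodule.mem_sup.1 hx
    refine ⟨⟨y, hy⟩, ?_⟩
    have : y - (x : Λ) = -z := by rw [← hyz]; ring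
    simp only [this]
    exact (𝔞 ^ (m + j)).neg_mem hz
  choose g hg using hstep
  let s : ∀ j, K (m + j) := fun j => Nat.rec (motive := fun j => K (m + j)) ⟨a, ha⟩
    (fun j x => g j x) j
  have hs : ∀ j, (s (j + 1) : Λ) - s j ∈ 𝔞 ^ (m + j) := fun j => hg j (s j)
  have hs' : ∀ i j, i ≤ j → (s j : Λ) - s i ∈ 𝔞 ^ (m + i) := by
    intro i j hij
    induction j, hij using Nat.le_induction with
    | base => simp
    | succ j hij ih =>
      have := Ideal.add_mem _ (Ideal.pow_le_pow_right (by omega : m + i ≤ m + j) (hs j)) ih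
      simpa using this
  obtain ⟨L, hL⟩ := IsPrecomplete.prec (I := 𝔞) (M := Λ) inferInstance (f := fun j => (s j : Λ))
    (by
      intro i j hij
      rw [SModEq.sub_mem, smul_eq_mul, Ideal.mul_top]
      have := Ideal.pow_le_pow_right (by omega : i ≤ m + i) (hs' i j hij)
      rw [← neg_mem_iff, neg_sub]
      exact this)
  have hL' : ∀ n, (s n : Λ) - L ∈ 𝔞 ^ n := by
    intro n
    have := hL n
    rwa [SModEq.sub_mem, smul_eq_mul, Ideal.mul_top] at this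
  have hLmem : L ∈ ⨅ j, K j := by
    rw [Submodule.mem_iInf]
    intro j
    have h1 := hanti (by omega : j ≤ m + j) (s j).2
    have h2 := hK0 j (hL' j)
    have := Ideal.sub_mem _ h1 h2
    simpa using this
  have hfin : a - L ∈ 𝔞 ^ m := by
    have h1 := hL' m
    have h2 := hs' 0 m (Nat.zero_le _)
    have h3 : (s 0 : Λ) = a := rfl
    rw [h3, add_zero] at h2
    have := Ideal.sub_mem _ h1 h2
    simpa using this
  exact Submodule.mem_sup.2 ⟨L, hLmem, a - L, hfin, by ring⟩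

theorem limit_isAdicComplete [IsAdicComplete 𝔞 Λ] (hK0 : ∀ m, 𝔞 ^ m ≤ K m)
    (hK : ∀ m, K (m + 1) ⊔ 𝔞 ^ m = K m) :
    IsAdicComplete (𝔞.map (Ideal.Quotient.mk (⨅ j, K j))) (Λ ⧸ (⨅ j, K j)) := by
  set J := ⨅ j, K j with hJ
  change IsAdicComplete (𝔞.map (algebraMap Λ (Λ ⧸ J))) (Λ ⧸ J)
  rw [IsAdicComplete.map_algebraMap_iff]
  have hpre : IsPrecomplete 𝔞 (Λ ⧸ J) :=
    isPrecomplete_of_surjective 𝔞 J.mkQ (Submodule.mkQ_surjective _)
  have hhaus : IsHausdorff 𝔞 (Λ ⧸ J) := by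
    refine ⟨fun x hx => ?_⟩
    obtain ⟨y, rfl⟩ := Ideal.Quotient.mk_surjective x
    rw [Ideal.Quotient.eq_zero_iff_mem, hJ, Submodule.mem_iInf]
    intro n
    rw [← limit_sup_pow 𝔞 K hK0 hK n, ← hJ]
    have h1 := hx n
    rw [SModEq.zero] at h1
    have h2 : 𝔞 ^ n • (⊤ : Submodule Λ (Λ ⧸ J)) = Submodule.map J.mkQ (𝔞 ^ n) := by
      rw [← Submodule.range_mkQ J, ← Submodule.map_top, ← Submodule.map_smul'']
      simp
    rw [h2] at h1
    obtain ⟨z, hz, hz'⟩ := Submodule.mem_map.1 h1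
    have h3 : z - y ∈ J := (Submodule.Quotient.eq J).1 hz'
    have : y = -(z - y) + z := by ring
    rw [this]
    exact Submodule.add_mem_sup (J.neg_mem h3) hz
  exact { toIsHausdorff := hhaus, toIsPrecomplete := hpre }

end LimitRing

section Main

variable {𝒪 P : Type} [CommRing 𝒪] [CommRing P] [Algebra 𝒪 P]
  (𝔪 : Ideal P) (I : ℕ → Ideal P) (hI0 : ∀ m, 𝔪 ^ m ≤ I m)
  {n : ℕ} (x : Fin n → P) (hx : ∀ i, x i ∈ 𝔪)

include hI0 hx in
lemma pow_idealOfVars_le_comap (m : ℕ) :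
    MvPolynomial.idealOfVars (Fin n) 𝒪 ^ m ≤
      (I m).comap (MvPolynomial.aeval (R := 𝒪) x : MvPolynomial (Fin n) 𝒪 →ₐ[𝒪] P) := by
  have h1 : (MvPolynomial.idealOfVars (Fin n) 𝒪).map
      (MvPolynomial.aeval (R := 𝒪) x : MvPolynomial (Fin n) 𝒪 →ₐ[𝒪] P) ≤ 𝔪 := by
    rw [Ideal.map_span, Ideal.span_le]
    rintro _ ⟨_, ⟨i, rfl⟩, rfl⟩
    simpa using hx i
  rw [← Ideal.map_le_iff_le_comap, Ideal.map_pow]
  exact (Ideal.pow_right_mono h1 m).trans (hI0 m)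

/-- the level maps from the power series ring -/
noncomputable def levelHom (m : ℕ) : MvPowerSeries (Fin n) 𝒪 →ₐ[𝒪] P ⧸ I m :=
  (Ideal.quotientMapₐ (I m) (MvPolynomial.aeval (R := 𝒪) x : MvPolynomial (Fin n) 𝒪 →ₐ[𝒪] P)
    (pow_idealOfVars_le_comap 𝔪 I hI0 x hx m)).comp
    ((MvPowerSeries.truncTotalAlgHom (Fin n) 𝒪 m).restrictScalars 𝒪)

lemma levelHom_apply (m : ℕ) (f : MvPowerSeries (Fin n) 𝒪) :
    levelHom 𝔪 I hI0 x hx m f =
      Ideal.Quotient.mk (I m) (MvPolynomial.aeval x (MvPowerSeries.truncTotal m f)) := rfl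

lemma levelHom_coe (m : ℕ) (p : MvPolynomial (Fin n) 𝒪) :
    levelHom 𝔪 I hI0 x hx m (p : MvPowerSeries (Fin n) 𝒪) =
      Ideal.Quotient.mk (I m) (MvPolynomial.aeval x p) := by
  rw [levelHom_apply, Ideal.Quotient.mk_eq_mk_iff_sub_mem, ← map_sub]
  apply pow_idealOfVars_le_comap 𝔪 I hI0 x hx m
  exact (MvPolynomial.mem_pow_idealOfVars_iff' ..).mpr fun x hx ↦ by
    simp [MvPowerSeries.coeff_truncTotal _ hx]

lemma levelHom_X (m : ℕ) (i : Fin n) :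
    levelHom (𝒪 := 𝒪) 𝔪 I hI0 x hx m (MvPowerSeries.X i) = Ideal.Quotient.mk (I m) (x i) := by
  rw [← MvPolynomial.coe_X, levelHom_coe, MvPolynomial.aeval_X]

variable (hI : ∀ m, I (m + 1) ⊔ 𝔪 ^ m = I m)

lemma levelHom_compat (m : ℕ) (hle : I (m + 1) ≤ I m) (f : MvPowerSeries (Fin n) 𝒪) :
    Ideal.Quotient.factor hle (levelHom 𝔪 I hI0 x hx (m + 1) f) =
      levelHom 𝔪 I hI0 x hx m f := by
  rw [levelHom_apply, levelHom_apply, Ideal.Quotient.factor_mk,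
    Ideal.Quotient.mk_eq_mk_iff_sub_mem, ← map_sub]
  apply pow_idealOfVars_le_comap 𝔪 I hI0 x hx m
  exact MvPowerSeries.truncTotal_sub_truncTotal_mem_pow_idealOfVars (by omega) le_rfl f

/-- the ideal of variables of the power series ring -/
noncomputable abbrev varIdeal (𝒪 : Type) [CommRing 𝒪] (n : ℕ) : Ideal (MvPowerSeries (Fin n) 𝒪) :=
  Ideal.span (Set.range MvPowerSeries.X)

variable (hgen : ∀ m, 𝔪 ≤ Ideal.span (Set.range x) ⊔ I m)

include hgen in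
lemma map_varIdeal (m : ℕ) : (varIdeal 𝒪 n).map (levelHom (𝒪 := 𝒪) 𝔪 I hI0 x hx m).toRingHom =
    𝔪.map (Ideal.Quotient.mk (I m)) := by
  apply le_antisymm
  · rw [varIdeal, Ideal.map_span, Ideal.span_le]
    rintro _ ⟨_, ⟨i, rfl⟩, rfl⟩
    change levelHom (𝒪 := 𝒪) 𝔪 I hI0 x hx m (MvPowerSeries.X i) ∈ _
    rw [levelHom_X]
    exact Ideal.mem_map_of_mem _ (hx i)
  · refine (Ideal.map_mono (hgen m)).trans ?_
    rw [Ideal.map_sup, Ideal.map_quotient_self, sup_bot_eq, Ideal.map_span, Ideal.span_le]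
    rintro _ ⟨_, ⟨i, rfl⟩, rfl⟩
    rw [← levelHom_X (𝒪 := 𝒪) 𝔪 I hI0 x hx m i]
    exact Ideal.mem_map_of_mem (levelHom (𝒪 := 𝒪) 𝔪 I hI0 x hx m).toRingHom
      (Ideal.subset_span ⟨i, rfl⟩)

variable (hsurj : ∀ p : P, ∃ a : 𝒪, p - algebraMap 𝒪 P a ∈ 𝔪)

include hgen hsurj in
lemma levelHom_surjective (m : ℕ) :
    Function.Surjective (levelHom (𝒪 := 𝒪) 𝔪 I hI0 x hx m) := by
  have hhaus : IsHausdorff ((varIdeal 𝒪 n).map (levelHom (𝒪 := 𝒪) 𝔪 I hI0 x hx m).toRingHom)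
      (P ⧸ I m) := by
    refine ⟨fun y hy => ?_⟩
    have h1 := hy m
    rw [SModEq.zero, smul_eq_mul, Ideal.mul_top, map_varIdeal 𝔪 I hI0 x hx hgen,
      ← Ideal.map_pow] at h1
    have h2 : (𝔪 ^ m).map (Ideal.Quotient.mk (I m)) = ⊥ := by
      rw [Ideal.map_eq_bot_iff_le_ker, Ideal.mk_ker]
      exact hI0 m
    rw [h2] at h1
    exact h1
  refine surjective_of_mk_map_comp_surjective (I := varIdeal 𝒪 n)
    (levelHom (𝒪 := 𝒪) 𝔪 I hI0 x hx m).toRingHom ?_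
  intro y
  obtain ⟨y, rfl⟩ := Ideal.Quotient.mk_surjective y
  obtain ⟨p, rfl⟩ := Ideal.Quotient.mk_surjective y
  obtain ⟨a, ha⟩ := hsurj p
  refine ⟨algebraMap 𝒪 _ a, ?_⟩
  rw [RingHom.comp_apply]
  have h3 : (levelHom (𝒪 := 𝒪) 𝔪 I hI0 x hx m).toRingHom (algebraMap 𝒪 _ a) =
    algebraMap 𝒪 _ a := (levelHom (𝒪 := 𝒪) 𝔪 I hI0 x hx m).commutes a
  rw [h3, Ideal.Quotient.mk_eq_mk_iff_sub_mem, map_varIdeal 𝔪 I hI0 x hx hgen]
  have h4 : (algebraMap 𝒪 (P ⧸ I m) a) - Ideal.Quotient.mk (I m) p =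
    Ideal.Quotient.mk (I m) (-(p - algebraMap 𝒪 P a)) := by
      rw [map_neg, map_sub]
      have : Ideal.Quotient.mk (I m) (algebraMap 𝒪 P a) = algebraMap 𝒪 (P ⧸ I m) a := rfl
      rw [this]
      ring
  rw [h4]
  exact Ideal.mem_map_of_mem _ (𝔪.neg_mem ha)

include hgen hsurj hI in
lemma ker_levelHom_sup (m : ℕ) :
    RingHom.ker (levelHom (𝒪 := 𝒪) 𝔪 I hI0 x hx (m + 1)) ⊔ varIdeal 𝒪 n ^ m =
      RingHom.ker (levelHom (𝒪 := 𝒪) 𝔪 I hI0 x hx m) := by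
  have hle : I (m + 1) ≤ I m := by rw [← hI m]; exact le_sup_left
  apply le_antisymm
  · refine sup_le ?_ ?_
    · intro f hf
      rw [RingHom.mem_ker] at hf ⊢
      rw [← levelHom_compat 𝔪 I hI0 x hx m hle, hf, map_zero]
    · intro f hf
      rw [RingHom.mem_ker]
      have h1 := Ideal.mem_map_of_mem (levelHom (𝒪 := 𝒪) 𝔪 I hI0 x hx m).toRingHom hf
      rw [Ideal.map_pow, map_varIdeal 𝔪 I hI0 x hx hgen, ← Ideal.map_pow] at h1
      have h2 : (𝔪 ^ m).map (Ideal.Quotient.mk (I m)) = ⊥ := by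
        rw [Ideal.map_eq_bot_iff_le_ker, Ideal.mk_ker]
        exact hI0 m
      rw [h2] at h1
      exact h1
  · intro f hf
    rw [RingHom.mem_ker] at hf
    obtain ⟨p, hp⟩ := Ideal.Quotient.mk_surjective (levelHom (𝒪 := 𝒪) 𝔪 I hI0 x hx (m + 1) f)
    have h1 : Ideal.Quotient.mk (I m) p = 0 := by
      rw [← hf, ← levelHom_compat 𝔪 I hI0 x hx m hle, ← hp, Ideal.Quotient.factor_mk]
    rw [Ideal.Quotient.eq_zero_iff_mem, ← hI m] at h1
    obtain ⟨i, hi, q, hq, rfl⟩ := Submodule.mem_sup.1 h1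
    have h2 : Ideal.Quotient.mk (I (m + 1)) (i + q) = Ideal.Quotient.mk (I (m + 1)) q := by
      rw [map_add, Ideal.Quotient.eq_zero_iff_mem.2 hi, zero_add]
    have h3 : Ideal.Quotient.mk (I (m + 1)) q ∈
        (varIdeal 𝒪 n ^ m).map (levelHom (𝒪 := 𝒪) 𝔪 I hI0 x hx (m + 1)).toRingHom := by
      rw [Ideal.map_pow, map_varIdeal 𝔪 I hI0 x hx hgen, ← Ideal.map_pow]
      exact Ideal.mem_map_of_mem _ hq
    obtain ⟨α, hα, hα'⟩ := (Ideal.mem_map_iff_of_surjective _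
      (levelHom_surjective 𝔪 I hI0 x hx hgen hsurj (m + 1))).1 h3
    have h4 : f - α ∈ RingHom.ker (levelHom (𝒪 := 𝒪) 𝔪 I hI0 x hx (m + 1)) := by
      rw [RingHom.mem_ker, map_sub, ← hp, h2, ← hα']
      exact sub_self _
    exact Submodule.mem_sup.2 ⟨f - α, h4, α, hα, by ring⟩

end Main

/-- a general limit construction of complete noetherian local rings -/
theorem exists_limit_ring {𝒪 P : Type} [CommRing 𝒪] [IsNoetherianRing 𝒪] [CommRing P] [Algebra 𝒪 P]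
    (𝔪 : Ideal P) (hmax : 𝔪.IsMaximal) (I : ℕ → Ideal P) (hI0 : ∀ m, 𝔪 ^ m ≤ I m)
    (hI : ∀ m, I (m + 1) ⊔ 𝔪 ^ m = I m) (hI1 : I 1 = 𝔪)
    {n : ℕ} (x : Fin n → P) (hx : ∀ i, x i ∈ 𝔪)
    (hgen : ∀ m, 𝔪 ≤ Ideal.span (Set.range x) ⊔ I m)
    (hsurj : ∀ p : P, ∃ a : 𝒪, p - algebraMap 𝒪 P a ∈ 𝔪) :
    ∃ (R : Type) (_ : CommRing R) (_ : IsLocalRing R) (_ : IsNoetherianRing R)
      (_ : IsAdicComplete (maximalIdeal R) R) (_ : Algebra 𝒪 R) (Φ : P →ₐ[𝒪] R),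
      (∀ m p, Φ p ∈ maximalIdeal R ^ m ↔ p ∈ I m) ∧
      (∀ m (r : R), ∃ p, r - Φ p ∈ maximalIdeal R ^ m) := by
  let θ := levelHom (𝒪 := 𝒪) 𝔪 I hI0 x hx
  let K : ℕ → Ideal (MvPowerSeries (Fin n) 𝒪) := fun m => RingHom.ker (θ m)
  let 𝔞 := varIdeal 𝒪 n
  have hK : ∀ m, K (m + 1) ⊔ 𝔞 ^ m = K m := fun m =>
    ker_levelHom_sup 𝔪 I hI0 x hx hI hgen hsurj m
  have hK0 : ∀ m, 𝔞 ^ m ≤ K m := fun m => by
    rw [← hK m]; exact le_sup_right
  have hθs : ∀ m, Function.Surjective (θ m) := fun m =>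
    levelHom_surjective 𝔪 I hI0 x hx hgen hsurj m
  have hanti : Antitone I := antitone_nat_of_succ_le fun n => by rw [← hI n]; exact le_sup_left
  have hcompat : ∀ {m m' : ℕ} (h : m ≤ m') (f : MvPowerSeries (Fin n) 𝒪),
      Ideal.Quotient.factor (hanti h) (θ m' f) = θ m f := by
    intro m m' h f
    induction m', h using Nat.le_induction with
    | base =>
      obtain ⟨q, hq⟩ := Ideal.Quotient.mk_surjective (θ m f)
      rw [← hq, Ideal.Quotient.factor_mk]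
    | succ m' h ih =>
      rw [← ih, ← levelHom_compat 𝔪 I hI0 x hx m' (hanti (Nat.le_succ m')) f]
      obtain ⟨q, hq⟩ := Ideal.Quotient.mk_surjective (θ (m' + 1) f)
      change Ideal.Quotient.factor _ (θ (m' + 1) f) =
        Ideal.Quotient.factor _ (Ideal.Quotient.factor _ (θ (m' + 1) f))
      rw [← hq, Ideal.Quotient.factor_mk, Ideal.Quotient.factor_mk, Ideal.Quotient.factor_mk]
  let J := ⨅ j, K j
  let R := MvPowerSeries (Fin n) 𝒪 ⧸ J
  let 𝔫 : Ideal R := 𝔞.map (Ideal.Quotient.mk J)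
  have hcomplete : IsAdicComplete 𝔫 R := limit_isAdicComplete 𝔞 K hK0 hK
  have hJK : ∀ m, J ≤ K m := fun m => iInf_le _ _
  -- the level maps on R
  let Θ : ∀ m, R →ₐ[𝒪] P ⧸ I m := fun m => Ideal.Quotient.liftₐ J (θ m) (fun a ha => hJK m ha)
  have hΘ : ∀ m f, Θ m (Ideal.Quotient.mk J f) = θ m f := fun m f => rfl
  have hΘs : ∀ m, Function.Surjective (Θ m) := by
    intro m y
    obtain ⟨f, hf⟩ := hθs m y
    exact ⟨Ideal.Quotient.mk J f, hf⟩
  have hΘk : ∀ m (r : R), Θ m r = 0 ↔ r ∈ 𝔫 ^ m := by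
    intro m r
    obtain ⟨f, rfl⟩ := Ideal.Quotient.mk_surjective r
    rw [hΘ]
    change f ∈ K m ↔ _
    rw [← limit_sup_pow 𝔞 K hK0 hK m]
    change _ ↔ _ ∈ (𝔞.map (Ideal.Quotient.mk J)) ^ m
    rw [← Ideal.map_pow, Ideal.mem_quotient_iff_mem_sup, sup_comm]
  have hΘc : ∀ {m m' : ℕ} (h : m ≤ m') (r : R),
      Ideal.Quotient.factor (hanti h) (Θ m' r) = Θ m r := by
    intro m m' h r
    obtain ⟨f, rfl⟩ := Ideal.Quotient.mk_surjective r
    exact hcompat h f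
  have hnmax : 𝔫.IsMaximal := by
    have h1 : 𝔫 = RingHom.ker (Θ 1) := by
      ext r
      rw [RingHom.mem_ker, hΘk]
      have h2 : 𝔫 ^ 1 = 𝔫 := pow_one 𝔫
      rw [h2]
    rw [h1]
    have : (I 1).IsMaximal := hI1 ▸ hmax
    let _ := Ideal.Quotient.field (I 1)
    exact RingHom.ker_isMaximal_of_surjective (Θ 1).toRingHom (hΘs 1)
  have hloc : IsLocalRing R := isLocalRing_of_isAdicComplete_maximal 𝔫
  have hmaxeq : maximalIdeal R = 𝔫 := (IsLocalRing.eq_maximalIdeal hnmax).symm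
  -- the map from P
  let E : ∀ m, (R ⧸ 𝔫 ^ m) ≃ₐ[𝒪] (P ⧸ I m) := fun m =>
    AlgEquiv.ofBijective (Ideal.Quotient.liftₐ (𝔫 ^ m) (Θ m) (fun a ha => (hΘk m a).2 ha)) (by
      constructor
      · rw [injective_iff_map_eq_zero]
        intro y hy
        obtain ⟨r, rfl⟩ := Ideal.Quotient.mk_surjective y
        rw [Ideal.Quotient.eq_zero_iff_mem]
        exact (hΘk m r).1 hy
      · intro y
        obtain ⟨r, hr⟩ := hΘs m y
        exact ⟨Ideal.Quotient.mk _ r, hr⟩)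
  have hE : ∀ m r, E m (Ideal.Quotient.mk _ r) = Θ m r := fun m r => rfl
  let f : ∀ m, P →ₐ[𝒪] R ⧸ 𝔫 ^ m := fun m => (E m).symm.toAlgHom.comp (Ideal.Quotient.mkₐ 𝒪 (I m))
  have hfE : ∀ m p, E m (f m p) = Ideal.Quotient.mk (I m) p := fun m p =>
    (E m).apply_symm_apply _
  have hfc : ∀ {m m' : ℕ} (hle : m ≤ m'),
      (Ideal.Quotient.factorₐ 𝒪 (Ideal.pow_le_pow_right hle)).comp (f m') = f m := by
    intro m m' hle
    ext p
    apply (E m).injective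
    rw [hfE, AlgHom.comp_apply]
    obtain ⟨r, hr⟩ := Ideal.Quotient.mk_surjective (f m' p)
    have h1 := hfE m' p
    rw [← hr, hE] at h1
    rw [← hr]
    change E m (Ideal.Quotient.mk _ r) = _
    rw [hE, ← hΘc hle, h1, Ideal.Quotient.factor_mk]
  let Φ : P →ₐ[𝒪] R := IsAdicComplete.liftAlgHom 𝔫 f hfc
  have hΦ : ∀ m p, Θ m (Φ p) = Ideal.Quotient.mk (I m) p := by
    intro m p
    rw [← hE, ← hfE]
    congr 1
    exact IsAdicComplete.mk_liftAlgHom 𝔫 f hfc m p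
  refine ⟨R, inferInstance, hloc, inferInstance, hmaxeq ▸ hcomplete, inferInstance, Φ, ?_, ?_⟩
  · intro m p
    rw [hmaxeq, ← hΘk, hΦ, Ideal.Quotient.eq_zero_iff_mem]
  · intro m r
    obtain ⟨p, hp⟩ := Ideal.Quotient.mk_surjective (Θ m r)
    refine ⟨p, ?_⟩
    rw [hmaxeq, ← hΘk, map_sub, hΦ, hp, sub_self]

/-- lifting property for the limit ring -/
theorem exists_limit_lift {𝒪 P R A : Type} [CommRing 𝒪] [CommRing P] [Algebra 𝒪 P] [CommRing R]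
    [Algebra 𝒪 R] [CommRing A] [Algebra 𝒪 A] (𝔫 : Ideal R) (𝔞 : Ideal A) [IsAdicComplete 𝔞 A]
    (I : ℕ → Ideal P) (Φ : P →ₐ[𝒪] R) (h1 : ∀ m p, Φ p ∈ 𝔫 ^ m ↔ p ∈ I m)
    (h2 : ∀ m (r : R), ∃ p, r - Φ p ∈ 𝔫 ^ m)
    (g : P →ₐ[𝒪] A) (hg : ∀ m p, p ∈ I m → g p ∈ 𝔞 ^ m) :
    ∃ φ : R →ₐ[𝒪] A, (∀ p, φ (Φ p) = g p) ∧ ∀ m r, r ∈ 𝔫 ^ m → φ r ∈ 𝔞 ^ m := by
  choose s hs using h2
  have key : ∀ m r p, r - Φ p ∈ 𝔫 ^ m →
      Ideal.Quotient.mk (𝔞 ^ m) (g (s m r)) = Ideal.Quotient.mk (𝔞 ^ m) (g p) := by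
    intro m r p hp
    rw [Ideal.Quotient.mk_eq_mk_iff_sub_mem, ← map_sub]
    apply hg
    rw [← h1, map_sub]
    have := Ideal.sub_mem _ hp (hs m r)
    convert this using 1
    ring
  let f : ∀ m, R →ₐ[𝒪] A ⧸ 𝔞 ^ m := fun m =>
    { toFun := fun r => Ideal.Quotient.mk (𝔞 ^ m) (g (s m r))
      map_one' := by rw [key m 1 1 (by simp), map_one, map_one]
      map_zero' := by rw [key m 0 0 (by simp), map_zero, map_zero]
      map_add' := fun r r' => by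
        rw [key m (r + r') (s m r + s m r') (by
          rw [map_add]
          have := Ideal.add_mem _ (hs m r) (hs m r')
          convert this using 1
          ring), map_add, map_add]
      map_mul' := fun r r' => by
        rw [key m (r * r') (s m r * s m r') (by
          rw [map_mul]
          have := Ideal.add_mem _ (Ideal.mul_mem_right r' _ (hs m r))
            (Ideal.mul_mem_left _ (Φ (s m r)) (hs m r'))
          convert this using 1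
          ring), map_mul, map_mul]
      commutes' := fun a => by
        rw [key m (algebraMap 𝒪 R a) (algebraMap 𝒪 P a) (by simp), AlgHom.commutes]
        rfl }
  have hf : ∀ {m m' : ℕ} (hle : m ≤ m'),
      (Ideal.Quotient.factorₐ 𝒪 (Ideal.pow_le_pow_right hle)).comp (f m') = f m := by
    intro m m' hle
    ext r
    change Ideal.Quotient.mk (𝔞 ^ m) (g (s m' r)) = Ideal.Quotient.mk (𝔞 ^ m) (g (s m r))
    exact (key m r (s m' r) (Ideal.pow_le_pow_right hle (hs m' r))).symm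
  have hφ : ∀ m r, Ideal.Quotient.mk (𝔞 ^ m) (IsAdicComplete.liftAlgHom 𝔞 f hf r) =
      Ideal.Quotient.mk (𝔞 ^ m) (g (s m r)) := fun m r =>
    IsAdicComplete.mk_liftAlgHom 𝔞 f hf m r
  refine ⟨IsAdicComplete.liftAlgHom 𝔞 f hf, ?_, ?_⟩
  · have : (IsAdicComplete.liftAlgHom 𝔞 f hf).comp Φ = g := by
      apply IsAdicComplete.algHom_ext 𝔞
      intro m
      ext p
      change Ideal.Quotient.mk (𝔞 ^ m) (IsAdicComplete.liftAlgHom 𝔞 f hf (Φ p)) =
        Ideal.Quotient.mk (𝔞 ^ m) (g p)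
      rw [hφ]
      exact key m (Φ p) p (by simp)
    intro p
    rw [← this]
    rfl
  · intro m r hr
    rw [← Ideal.Quotient.eq_zero_iff_mem, hφ, key m r 0 (by simpa using hr), map_zero, map_zero]

end Fermat.Agent.DefRing
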