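import Fermat.Agent.DefRing.Rigid
import Fermat.Agent.DefRing.Limit

set_option autoImplicit false

namespace Fermat.Agent.DefRing

open IsLocalRing Matrix
open scoped TensorProduct

/-- the big polynomial ring -/
abbrev PP (𝒪 : Type) [CommRing 𝒪] : Type := MvPolynomial (GQ × Fin 2 × Fin 2) 𝒪

/-- type of conditions -/
abbrev Cond (𝒪 : Type) [CommRing 𝒪] : Type 1 :=
  ∀ ⦃A : Type⦄ [CommRing A] [IsLocalRing A] [Algebra 𝒪 A], GaloisRepAdic A → Prop

section basics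

variable {𝒪 : Type} [CommRing 𝒪]

/-- the tautological matrices over the polynomial ring -/
noncomputable def taut (𝒪 : Type) [CommRing 𝒪] (σ : GQ) : Matrix (Fin 2) (Fin 2) (PP 𝒪) :=
  Matrix.of fun i j => MvPolynomial.X (σ, i, j)

@[simp] lemma taut_apply (σ : GQ) (i j : Fin 2) : taut 𝒪 σ i j = MvPolynomial.X (σ, i, j) := rfl

/-- evaluation at a matrix valued function -/
noncomputable def evalR {A : Type} [CommRing A] [Algebra 𝒪 A]
    (r : GQ → Matrix (Fin 2) (Fin 2) A) : PP 𝒪 →ₐ[𝒪] A :=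
  MvPolynomial.aeval fun t => r t.1 t.2.1 t.2.2

@[simp] lemma evalR_X {A : Type} [CommRing A] [Algebra 𝒪 A]
    (r : GQ → Matrix (Fin 2) (Fin 2) A) (σ : GQ) (i j : Fin 2) :
    evalR (𝒪 := 𝒪) r (MvPolynomial.X (σ, i, j)) = r σ i j := by
  simp [evalR]

lemma taut_map_evalR {A : Type} [CommRing A] [Algebra 𝒪 A]
    (r : GQ → Matrix (Fin 2) (Fin 2) A) (σ : GQ) :
    (taut 𝒪 σ).map (evalR (𝒪 := 𝒪) r) = r σ := by
  ext i j
  simp

lemma evalR_unique {A : Type} [CommRing A] [Algebra 𝒪 A]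
    (r : GQ → Matrix (Fin 2) (Fin 2) A) (f : PP 𝒪 →ₐ[𝒪] A)
    (h : ∀ σ i j, f (MvPolynomial.X (σ, i, j)) = r σ i j) : f = evalR r := by
  apply MvPolynomial.algHom_ext
  rintro ⟨σ, i, j⟩
  rw [h, evalR_X]

end basics

section family

variable {𝒪 : Type} [CommRing 𝒪] [IsLocalRing 𝒪]
variable (rb : GQ → Matrix (Fin 2) (Fin 2) (ResidueField 𝒪)) (c d : GQ →₀ 𝒪) (𝒟 : Cond 𝒪)

/-- `r` is a rigid deformation of type `𝒟` over a test algebra -/
structure GoodRep {A : Type} [CommRing A] [IsLocalRing A] [Algebra 𝒪 A]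
    (r : GQ →* Matrix (Fin 2) (Fin 2) A) : Prop where
  test : GaloisRep.IsArtinianTestAlgebra 𝒪 A
  red : Reduces rb r
  rig : IsRigid c d r
  cond : ∃ hr : MatCont r, 𝒟 (ofMat r hr)

/-- the kernel ideal of the residual representation -/
noncomputable def resIdeal : Ideal (PP 𝒪) := RingHom.ker (evalR (𝒪 := 𝒪) rb)

/-- good ideals -/
def GoodIdeal (I : Ideal (PP 𝒪)) : Prop :=
  ∃ (_ : IsLocalRing (PP 𝒪 ⧸ I)) (r : GQ →* Matrix (Fin 2) (Fin 2) (PP 𝒪 ⧸ I)),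
    (∀ σ, r σ = (taut 𝒪 σ).map (Ideal.Quotient.mk I)) ∧ GoodRep rb c d 𝒟 r

variable {rb c d 𝒟}

lemma finite_of_test [Finite (ResidueField 𝒪)] {A : Type} [CommRing A] [IsLocalRing A]
    [Algebra 𝒪 A] (hA : GaloisRep.IsArtinianTestAlgebra 𝒪 A) : Finite A := by
  have := hA.isLocalHom
  have := hA.isArtinian
  have hs : Function.Surjective (ResidueField.map (algebraMap 𝒪 A)) := by
    intro y
    obtain ⟨a, ha⟩ := hA.residue_surjective y
    exact ⟨residue 𝒪 a, by rw [ResidueField.map_residue]; exact ha⟩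
  have : Finite (ResidueField A) := Finite.of_surjective _ hs
  have h1 : Finite (A ⧸ (⊥ : Ideal A)) := by
    rw [finite_quotient_iff]
    obtain ⟨n, hn⟩ := (isArtinianRing_iff_isNilpotent_maximalIdeal A).mp inferInstance
    exact ⟨n, hn.le⟩
  exact Finite.of_injective (Ideal.Quotient.mk (⊥ : Ideal A)) (by
    rw [RingHom.injective_iff_ker_eq_bot, Ideal.mk_ker])

omit [IsLocalRing 𝒪] in
lemma exists_sub_mem_of_test {A : Type} [CommRing A] [IsLocalRing A]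
    [Algebra 𝒪 A] (hA : Function.Surjective (residue A ∘ algebraMap 𝒪 A)) (a : A) :
    ∃ x : 𝒪, a - algebraMap 𝒪 A x ∈ maximalIdeal A := by
  obtain ⟨x, hx⟩ := hA (residue A a)
  refine ⟨x, ?_⟩
  rw [← residue_eq_zero_iff, map_sub, sub_eq_zero]
  exact hx.symm

/-- subalgebras of test algebras are test algebras -/
lemma test_of_injective [Finite (ResidueField 𝒪)] {A B : Type} [CommRing A] [IsLocalRing A]
    [Algebra 𝒪 A] (hA : GaloisRep.IsArtinianTestAlgebra 𝒪 A) [CommRing B] [Algebra 𝒪 B]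
    (e : B →ₐ[𝒪] A) (he : Function.Injective e) :
    IsLocalHom (e : B →+* A) ∧
      ∃ _ : IsLocalRing B, GaloisRep.IsArtinianTestAlgebra 𝒪 B := by
  have := hA.isLocalHom
  have := hA.isArtinian
  have hfin := finite_of_test hA
  have hfinB : Finite B := Finite.of_injective e he
  obtain ⟨n, hn⟩ := (isArtinianRing_iff_isNilpotent_maximalIdeal A).mp inferInstance
  have hnil : ∀ b : B, e b ∈ maximalIdeal A → IsNilpotent b := by
    intro b hb
    refine ⟨n, he ?_⟩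
    rw [map_pow, map_zero]
    have := Ideal.pow_mem_pow hb n
    rw [hn] at this
    exact this
  have hloc : IsLocalHom (e : B →+* A) := by
    constructor
    intro b hb
    obtain ⟨x, hx⟩ := exists_sub_mem_of_test hA.residue_surjective (e b)
    have hxu : IsUnit (algebraMap 𝒪 A x) := by
      by_contra hcon
      have h1 : algebraMap 𝒪 A x ∈ maximalIdeal A := hcon
      have := Ideal.add_mem _ hx h1
      rw [sub_add_cancel] at this
      exact this hb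
    have hxu' : IsUnit x := isUnit_of_map_unit (algebraMap 𝒪 A) x hxu
    have h2 : IsNilpotent (b - algebraMap 𝒪 B x) := by
      apply hnil
      rw [map_sub, AlgHom.commutes]
      exact hx
    have h3 : IsUnit (algebraMap 𝒪 B x) := hxu'.map _
    have := h2.isUnit_add_left_of_commute h3 (Commute.all _ _)
    rwa [add_sub_cancel] at this
  have hlocR : IsLocalRing B := RingHom.domain_isLocalRing (e : B →+* A)
  refine ⟨hloc, hlocR, ⟨?_, ?_, inferInstance⟩⟩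
  · have h4 : (e : B →+* A).comp (algebraMap 𝒪 B) = algebraMap 𝒪 A := by
      ext x; exact e.commutes x
    have : IsLocalHom ((e : B →+* A).comp (algebraMap 𝒪 B)) := by rw [h4]; infer_instance
    exact isLocalHom_of_comp (algebraMap 𝒪 B) (e : B →+* A)
  · intro y
    obtain ⟨b, rfl⟩ := residue_surjective y
    obtain ⟨x, hx⟩ := exists_sub_mem_of_test hA.residue_surjective (e b)
    refine ⟨x, ?_⟩
    change residue B (algebraMap 𝒪 B x) = residue B b
    rw [eq_comm, ← sub_eq_zero, ← map_sub, residue_eq_zero_iff]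
    rw [mem_maximalIdeal, mem_nonunits_iff]
    intro hu
    have := hu.map e
    rw [map_sub, AlgHom.commutes] at this
    exact hx this

omit [IsLocalRing 𝒪] in
/-- quotients of test algebras are test algebras -/
lemma test_of_surjective {A B : Type} [CommRing A] [IsLocalRing A]
    [Algebra 𝒪 A] (hA : GaloisRep.IsArtinianTestAlgebra 𝒪 A) [CommRing B] [Nontrivial B]
    [Algebra 𝒪 B] (e : A →ₐ[𝒪] B) (he : Function.Surjective e) :
    IsLocalHom (e : A →+* B) ∧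
      ∃ _ : IsLocalRing B, GaloisRep.IsArtinianTestAlgebra 𝒪 B := by
  have := hA.isLocalHom
  have := hA.isArtinian
  have hlocB : IsLocalRing B := IsLocalRing.of_surjective' (e : A →+* B) he
  have hloc : IsLocalHom (e : A →+* B) := IsLocalHom.of_surjective _ he
  have hart : IsArtinianRing B := Function.Surjective.isArtinianRing (f := (e : A →+* B)) he
  refine ⟨hloc, hlocB, ⟨?_, ?_, hart⟩⟩
  · have h4 : (e : A →+* B).comp (algebraMap 𝒪 A) = algebraMap 𝒪 B := by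
      ext x; exact e.commutes x
    rw [← h4]
    infer_instance
  · intro y
    obtain ⟨b, rfl⟩ := residue_surjective y
    obtain ⟨a, rfl⟩ := he b
    obtain ⟨x, hx⟩ := exists_sub_mem_of_test hA.residue_surjective a
    refine ⟨x, ?_⟩
    change residue B (algebraMap 𝒪 B x) = residue B (e a)
    rw [eq_comm, ← sub_eq_zero, ← map_sub, residue_eq_zero_iff]
    have := map_nonunit (e : A →+* B) _ hx
    rw [map_sub] at this
    have h5 : (e : A →+* B) (algebraMap 𝒪 A x) = algebraMap 𝒪 B x := e.commutes x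
    rwa [h5] at this

/-- over an Artinian local ring a continuous representation is trivial on an open subgroup -/
lemma MatCont.exists_trivial {A : Type} [CommRing A] [IsLocalRing A] [IsArtinianRing A]
    {r : GQ →* Matrix (Fin 2) (Fin 2) A} (hr : MatCont r) :
    ∃ L : IntermediateField ℚ (AlgebraicClosure ℚ), FiniteDimensional ℚ L ∧
      ∀ σ : GQ, (∀ x ∈ L, σ x = x) → r σ = 1 := by
  obtain ⟨n, hn⟩ := (isArtinianRing_iff_isNilpotent_maximalIdeal A).mp inferInstance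
  obtain ⟨L, hL, h1⟩ := hr n
  refine ⟨L, hL, fun σ hσ => ?_⟩
  ext i j
  have := h1 σ hσ i j
  rw [hn] at this
  have h2 : (r σ - 1) i j = 0 := this
  rw [Matrix.sub_apply, sub_eq_zero] at h2
  exact h2

lemma matCont_of_trivial {A : Type} [CommRing A] [IsLocalRing A]
    {r : GQ →* Matrix (Fin 2) (Fin 2) A}
    (h : ∃ L : IntermediateField ℚ (AlgebraicClosure ℚ), FiniteDimensional ℚ L ∧
      ∀ σ : GQ, (∀ x ∈ L, σ x = x) → r σ = 1) : MatCont r := by
  intro n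
  obtain ⟨L, hL, h1⟩ := h
  refine ⟨L, hL, fun σ hσ i j => ?_⟩
  rw [h1 σ hσ, sub_self]
  exact Ideal.zero_mem _

variable (h𝒟 : GaloisRep.IsDeformationCondition 𝒪 𝒟)

include h𝒟 in
/-- pushing forward good representations -/
lemma GoodRep.push {A B : Type} [CommRing A] [IsLocalRing A] [Algebra 𝒪 A] [CommRing B]
    [IsLocalRing B] [Algebra 𝒪 B] {r : GQ →* Matrix (Fin 2) (Fin 2) A}
    (hr : GoodRep rb c d 𝒟 r) (hB : GaloisRep.IsArtinianTestAlgebra 𝒪 B) (φ : A →ₐ[𝒪] B)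
    (hφ : IsLocalHom (φ : A →+* B)) : GoodRep rb c d 𝒟 (mapMat (φ : A →+* B) r) := by
  obtain ⟨hcont, hcond⟩ := hr.cond
  refine ⟨hB, ?_, ?_, hcont.mapMat _ hφ, ?_⟩
  · exact hr.red.map (φ : A →+* B) φ.commutes
  · exact hr.rig.map (φ : A →+* B) φ.commutes
  · exact h𝒟.of_isEquiv hB (isEquiv_baseChange_ofMat (φ : A →+* B) hφ hcont)
      (h𝒟.baseChangeAlong hr.test hB φ hφ hcond)

include h𝒟 in
/-- descending good representations along injections -/
lemma GoodRep.descend {A B : Type} [CommRing A] [IsLocalRing A] [Algebra 𝒪 A] [CommRing B]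
    [IsLocalRing B] [Algebra 𝒪 B] {r : GQ →* Matrix (Fin 2) (Fin 2) A}
    (hr : GoodRep rb c d 𝒟 r) (hB : GaloisRep.IsArtinianTestAlgebra 𝒪 B) (φ : B →ₐ[𝒪] A)
    (hφ : IsLocalHom (φ : B →+* A)) (hinj : Function.Injective φ)
    (r' : GQ →* Matrix (Fin 2) (Fin 2) B) (hr' : mapMat (φ : B →+* A) r' = r) :
    GoodRep rb c d 𝒟 r' := by
  obtain ⟨hcont, hcond⟩ := hr.cond
  have hA := hr.test
  have := hA.isArtinian
  have hcont' : MatCont r' := by
    apply matCont_of_trivial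
    obtain ⟨L, hL, h1⟩ := hcont.exists_trivial
    refine ⟨L, hL, fun σ hσ => ?_⟩
    have h2 := h1 σ hσ
    rw [← hr', mapMat_apply] at h2
    ext i j
    apply hinj
    have h3 := congrFun (congrFun h2 i) j
    rw [Matrix.map_apply] at h3
    change (φ : B →+* A) _ = (φ : B →+* A) _
    rw [h3]
    simp only [Matrix.one_apply]
    split_ifs <;> simp
  have hfun : ∀ σ, (r' σ).map (φ : B →+* A) = r σ := fun σ => by rw [← hr']; rfl
  have hfun' : (fun σ => (r' σ).map (φ : B →+* A)) = ⇑r := funext hfun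
  refine ⟨hB, ?_, ?_, hcont', ?_⟩
  · refine Reduces.of_map (φ : B →+* A) φ.commutes ?_
    rw [hfun']
    exact hr.red
  · refine IsRigid.of_map (φ : B →+* A) φ.commutes hinj ?_
    rw [hfun']
    exact hr.rig
  · apply h𝒟.of_baseChangeAlong_injective hB hA φ hφ hinj
    subst hr'
    obtain ⟨e⟩ := isEquiv_baseChange_ofMat (φ : B →+* A) hφ hcont'
    exact h𝒟.of_isEquiv hA ⟨e.symm⟩ hcond

include h𝒟 in
/-- kernels of good representations are good ideals -/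
lemma GoodRep.goodIdeal_ker [Finite (ResidueField 𝒪)] {A : Type} [CommRing A] [IsLocalRing A]
    [Algebra 𝒪 A] {r : GQ →* Matrix (Fin 2) (Fin 2) A} (hr : GoodRep rb c d 𝒟 r) :
    GoodIdeal rb c d 𝒟 (RingHom.ker (evalR (𝒪 := 𝒪) r)) := by
  set I := RingHom.ker (evalR (𝒪 := 𝒪) r) with hI
  let e : (PP 𝒪 ⧸ I) →ₐ[𝒪] A := Ideal.kerLiftAlg (evalR (𝒪 := 𝒪) r)
  have he : Function.Injective e := Ideal.kerLiftAlg_injective _
  have hemk : ∀ p, e (Ideal.Quotient.mk I p) = evalR (𝒪 := 𝒪) r p := fun p =>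
    Ideal.kerLiftAlg_mk _ p
  obtain ⟨hloc, hlocR, htest⟩ := test_of_injective hr.test e he
  have hmap : ∀ σ, ((taut 𝒪 σ).map (Ideal.Quotient.mk I)).map e = r σ := by
    intro σ
    ext i j
    rw [Matrix.map_apply, Matrix.map_apply, hemk, taut_apply, evalR_X]
  have hinj : ∀ M N : Matrix (Fin 2) (Fin 2) (PP 𝒪 ⧸ I), M.map e = N.map e → M = N := by
    intro M N h
    ext i j
    apply he
    exact congrFun (congrFun h i) j
  let r' : GQ →* Matrix (Fin 2) (Fin 2) (PP 𝒪 ⧸ I) :=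
    { toFun := fun σ => (taut 𝒪 σ).map (Ideal.Quotient.mk I)
      map_one' := by
        apply hinj
        rw [hmap, map_one, Matrix.map_one _ (map_zero e) (map_one e)]
      map_mul' := fun σ τ => by
        apply hinj
        rw [hmap, map_mul, Matrix.map_mul, hmap, hmap] }
  refine ⟨hlocR, r', fun σ => rfl, ?_⟩
  refine hr.descend h𝒟 htest e hloc he r' ?_
  ext σ i j
  exact congrFun (congrFun (hmap σ) i) j

omit [IsLocalRing 𝒪] in
lemma evalR_eq_of_goodIdeal {I : Ideal (PP 𝒪)} {r : GQ → Matrix (Fin 2) (Fin 2) (PP 𝒪 ⧸ I)}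
    (h : ∀ σ, r σ = (taut 𝒪 σ).map (Ideal.Quotient.mk I)) :
    evalR (𝒪 := 𝒪) r = Ideal.Quotient.mkₐ 𝒪 I := by
  symm
  apply evalR_unique
  intro σ i j
  rw [h σ, Matrix.map_apply]
  rfl

/-- for representations reducing to `rb`, evaluation detects the residual ideal -/
lemma evalR_mem_maximalIdeal_iff {A : Type} [CommRing A] [IsLocalRing A]
    [Algebra 𝒪 A] [IsLocalHom (algebraMap 𝒪 A)] {r : GQ → Matrix (Fin 2) (Fin 2) A}
    (hr : Reduces rb r) (p : PP 𝒪) : evalR (𝒪 := 𝒪) r p ∈ maximalIdeal A ↔ p ∈ resIdeal rb := by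
  have h1 : ((residue A).comp (evalR (𝒪 := 𝒪) r : PP 𝒪 →+* A)) =
      (ResidueField.map (algebraMap 𝒪 A)).comp (evalR (𝒪 := 𝒪) rb : PP 𝒪 →+* ResidueField 𝒪) := by
    apply MvPolynomial.ringHom_ext
    · intro a
      change residue A (evalR (𝒪 := 𝒪) r (algebraMap 𝒪 _ a)) =
        ResidueField.map (algebraMap 𝒪 A) (evalR (𝒪 := 𝒪) rb (algebraMap 𝒪 _ a))
      rw [AlgHom.commutes, AlgHom.commutes, ResidueField.algebraMap_eq, ResidueField.map_residue]
    · rintro ⟨σ, i, j⟩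
      change residue A (evalR (𝒪 := 𝒪) r (MvPolynomial.X (σ, i, j))) =
        ResidueField.map (algebraMap 𝒪 A) (evalR (𝒪 := 𝒪) rb (MvPolynomial.X (σ, i, j)))
      rw [evalR_X, evalR_X]
      exact congrFun (congrFun (((reduces_iff _ _).1 hr) σ) i) j
  have h2 := RingHom.congr_fun h1 p
  simp only [RingHom.comp_apply] at h2
  rw [← residue_eq_zero_iff, resIdeal, RingHom.mem_ker]
  change residue A ((evalR (𝒪 := 𝒪) r : PP 𝒪 →+* A) p) = 0 ↔
    (evalR (𝒪 := 𝒪) rb : PP 𝒪 →+* ResidueField 𝒪) p = 0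
  rw [h2, map_eq_zero]

variable (rb) in
lemma exists_sub_mem_resIdeal (p : PP 𝒪) : ∃ a : 𝒪, p - algebraMap 𝒪 (PP 𝒪) a ∈ resIdeal rb := by
  obtain ⟨a, ha⟩ := residue_surjective (evalR (𝒪 := 𝒪) rb p)
  refine ⟨a, ?_⟩
  rw [resIdeal, RingHom.mem_ker, map_sub, AlgHom.commutes, ResidueField.algebraMap_eq, ha, sub_self]

variable (rb) in
lemma algebraMap_mem_resIdeal_iff (a : 𝒪) :
    algebraMap 𝒪 (PP 𝒪) a ∈ resIdeal rb ↔ a ∈ maximalIdeal 𝒪 := by
  rw [resIdeal, RingHom.mem_ker, AlgHom.commutes, ResidueField.algebraMap_eq, residue_eq_zero_iff]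

instance resIdeal_isMaximal : (resIdeal rb).IsMaximal := by
  refine RingHom.ker_isMaximal_of_surjective (evalR (𝒪 := 𝒪) rb : PP 𝒪 →+* ResidueField 𝒪) ?_
  intro y
  obtain ⟨a, rfl⟩ := residue_surjective y
  exact ⟨algebraMap 𝒪 (PP 𝒪) a, AlgHom.commutes (evalR (𝒪 := 𝒪) rb) a⟩

variable (rb) in
lemma resIdeal_ne_top : resIdeal rb ≠ ⊤ := resIdeal_isMaximal.ne_top

lemma level_test {I : Ideal (PP 𝒪)} (h1 : I ≤ resIdeal rb) {n : ℕ} (h2 : resIdeal rb ^ n ≤ I)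
    (h3 : Finite (PP 𝒪 ⧸ I)) :
    ∃ _ : IsLocalRing (PP 𝒪 ⧸ I), GaloisRep.IsArtinianTestAlgebra 𝒪 (PP 𝒪 ⧸ I) := by
  have hnt : Nontrivial (PP 𝒪 ⧸ I) := Ideal.Quotient.nontrivial_iff.2 (by
    rintro rfl
    exact resIdeal_ne_top rb (top_le_iff.1 h1))
  have hnil : ∀ p ∈ resIdeal rb, IsNilpotent (Ideal.Quotient.mk I p) := by
    intro p hp
    refine ⟨n, ?_⟩
    rw [← map_pow, Ideal.Quotient.eq_zero_iff_mem]
    exact h2 (Ideal.pow_mem_pow hp n)
  have hunit : ∀ p, p ∉ resIdeal rb → IsUnit (Ideal.Quotient.mk I p) := by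
    intro p hp
    obtain ⟨q, hq⟩ := Ideal.Quotient.exists_inv (I := resIdeal rb)
      (a := Ideal.Quotient.mk (resIdeal rb) p) (by rwa [Ne, Ideal.Quotient.eq_zero_iff_mem])
    obtain ⟨q, rfl⟩ := Ideal.Quotient.mk_surjective q
    rw [← map_mul, ← map_one (Ideal.Quotient.mk _), Ideal.Quotient.mk_eq_mk_iff_sub_mem] at hq
    have h4 := hnil _ hq
    have h5 : IsUnit (1 + Ideal.Quotient.mk I (p * q - 1)) := h4.isUnit_one_add
    have h6 : 1 + Ideal.Quotient.mk I (p * q - 1) = Ideal.Quotient.mk I p * Ideal.Quotient.mk I q := by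
      rw [map_sub, map_mul, map_one]; ring
    rw [h6] at h5
    exact isUnit_of_mul_isUnit_left h5
  have hlocR : IsLocalRing (PP 𝒪 ⧸ I) := by
    refine IsLocalRing.of_isUnit_or_isUnit_one_sub_self fun a => ?_
    obtain ⟨p, rfl⟩ := Ideal.Quotient.mk_surjective a
    by_cases hp : p ∈ resIdeal rb
    · right
      exact (hnil p hp).isUnit_one_sub
    · left
      exact hunit p hp
  refine ⟨hlocR, ⟨?_, ?_, inferInstance⟩⟩
  · constructor
    intro a ha
    by_contra hcon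
    have h4 := hnil _ ((algebraMap_mem_resIdeal_iff rb a).2 hcon)
    have h5 : Ideal.Quotient.mk I (algebraMap 𝒪 (PP 𝒪) a) = algebraMap 𝒪 _ a := rfl
    rw [h5] at h4
    exact (h4.not_isUnit) ha
  · intro y
    obtain ⟨b, rfl⟩ := residue_surjective y
    obtain ⟨p, rfl⟩ := Ideal.Quotient.mk_surjective b
    obtain ⟨a, ha⟩ := exists_sub_mem_resIdeal rb p
    refine ⟨a, ?_⟩
    change residue _ (algebraMap 𝒪 _ a) = residue _ (Ideal.Quotient.mk I p)
    rw [eq_comm, ← sub_eq_zero, ← map_sub, residue_eq_zero_iff]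
    have h5 : Ideal.Quotient.mk I (algebraMap 𝒪 (PP 𝒪) a) = algebraMap 𝒪 _ a := rfl
    rw [← h5, ← map_sub, mem_maximalIdeal, mem_nonunits_iff]
    exact (hnil _ ha).not_isUnit

lemma GoodIdeal.mk_mem_maximalIdeal_iff {I : Ideal (PP 𝒪)} (hloc : IsLocalRing (PP 𝒪 ⧸ I))
    {r : GQ →* Matrix (Fin 2) (Fin 2) (PP 𝒪 ⧸ I)}
    (h1 : ∀ σ, r σ = (taut 𝒪 σ).map (Ideal.Quotient.mk I)) (h2 : GoodRep rb c d 𝒟 r) (p : PP 𝒪) :
    Ideal.Quotient.mk I p ∈ maximalIdeal (PP 𝒪 ⧸ I) ↔ p ∈ resIdeal rb := by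
  have := h2.test.isLocalHom
  have h3 := evalR_mem_maximalIdeal_iff h2.red p
  rw [evalR_eq_of_goodIdeal h1] at h3
  exact h3

lemma GoodIdeal.le {I : Ideal (PP 𝒪)} (hI : GoodIdeal rb c d 𝒟 I) : I ≤ resIdeal rb := by
  obtain ⟨hloc, r, h1, h2⟩ := hI
  intro p hp
  rw [← GoodIdeal.mk_mem_maximalIdeal_iff hloc h1 h2, Ideal.Quotient.eq_zero_iff_mem.2 hp]
  exact Ideal.zero_mem _

lemma GoodIdeal.exists_pow_le {I : Ideal (PP 𝒪)} (hI : GoodIdeal rb c d 𝒟 I) :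
    ∃ n, resIdeal rb ^ n ≤ I := by
  obtain ⟨hloc, r, h1, h2⟩ := hI
  have := h2.test.isArtinian
  obtain ⟨n, hn⟩ := (isArtinianRing_iff_isNilpotent_maximalIdeal (PP 𝒪 ⧸ I)).mp inferInstance
  refine ⟨n, ?_⟩
  have h3 : (resIdeal rb).map (Ideal.Quotient.mk I) ≤ maximalIdeal (PP 𝒪 ⧸ I) := by
    rw [Ideal.map_le_iff_le_comap]
    intro p hp
    exact (GoodIdeal.mk_mem_maximalIdeal_iff hloc h1 h2 p).2 hp
  have h4 : (resIdeal rb ^ n).map (Ideal.Quotient.mk I) ≤ ⊥ := by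
    rw [Ideal.map_pow]
    exact (Ideal.pow_right_mono h3 n).trans (by rw [hn]; exact le_rfl)
  rw [le_bot_iff, Ideal.map_eq_bot_iff_le_ker, Ideal.mk_ker] at h4
  exact h4

lemma GoodIdeal.finite [Finite (ResidueField 𝒪)] {I : Ideal (PP 𝒪)}
    (hI : GoodIdeal rb c d 𝒟 I) : Finite (PP 𝒪 ⧸ I) := by
  obtain ⟨hloc, r, h1, h2⟩ := hI
  exact finite_of_test h2.test

include h𝒟 in
lemma GoodIdeal.of_le {I J : Ideal (PP 𝒪)} (hI : GoodIdeal rb c d 𝒟 I) (hIJ : I ≤ J)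
    (hJ : J ≤ resIdeal rb) : GoodIdeal rb c d 𝒟 J := by
  obtain ⟨hloc, r, h1, h2⟩ := hI
  have hnt : Nontrivial (PP 𝒪 ⧸ J) := Ideal.Quotient.nontrivial_iff.2 (by
    rintro rfl
    exact resIdeal_ne_top rb (top_le_iff.1 hJ))
  let e : (PP 𝒪 ⧸ I) →ₐ[𝒪] (PP 𝒪 ⧸ J) := Ideal.Quotient.factorₐ 𝒪 hIJ
  have he : Function.Surjective e := Ideal.Quotient.factor_surjective hIJ
  obtain ⟨hloce, hlocJ, htest⟩ := test_of_surjective h2.test e he
  refine ⟨hlocJ, mapMat (e : _ →+* _) r, ?_, h2.push h𝒟 htest e hloce⟩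
  intro σ
  rw [mapMat_apply, h1 σ]
  ext i j
  rfl

include h𝒟 in
lemma GoodIdeal.inf [Finite (ResidueField 𝒪)] {I J : Ideal (PP 𝒪)} (hI : GoodIdeal rb c d 𝒟 I)
    (hJ : GoodIdeal rb c d 𝒟 J) : GoodIdeal rb c d 𝒟 (I ⊓ J) := by
  have hsup : GoodIdeal rb c d 𝒟 (I ⊔ J) := hI.of_le h𝒟 le_sup_left (sup_le hI.le hJ.le)
  have hfI := hI.finite
  have hfJ := hJ.finite
  have hle : I ⊓ J ≤ resIdeal rb := inf_le_left.trans hI.le
  obtain ⟨n, hn⟩ := hI.exists_pow_le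
  obtain ⟨n', hn'⟩ := hJ.exists_pow_le
  have hpow : resIdeal rb ^ (max n n') ≤ I ⊓ J :=
    le_inf ((Ideal.pow_le_pow_right (le_max_left _ _)).trans hn)
      ((Ideal.pow_le_pow_right (le_max_right _ _)).trans hn')
  obtain ⟨hlocI, rI, hI1, hI2⟩ := hI
  obtain ⟨hlocJ, rJ, hJ1, hJ2⟩ := hJ
  obtain ⟨hlocC, rC, hC1, hC2⟩ := hsup
  let pA : (PP 𝒪 ⧸ (I ⊓ J)) →ₐ[𝒪] (PP 𝒪 ⧸ I) := Ideal.Quotient.factorₐ 𝒪 inf_le_left
  let pB : (PP 𝒪 ⧸ (I ⊓ J)) →ₐ[𝒪] (PP 𝒪 ⧸ J) := Ideal.Quotient.factorₐ 𝒪 inf_le_right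
  let f : (PP 𝒪 ⧸ I) →ₐ[𝒪] (PP 𝒪 ⧸ (I ⊔ J)) := Ideal.Quotient.factorₐ 𝒪 le_sup_left
  let g : (PP 𝒪 ⧸ J) →ₐ[𝒪] (PP 𝒪 ⧸ (I ⊔ J)) := Ideal.Quotient.factorₐ 𝒪 le_sup_right
  have hpA : ∀ p, pA (Ideal.Quotient.mk _ p) = Ideal.Quotient.mk _ p := fun p => rfl
  have hpB : ∀ p, pB (Ideal.Quotient.mk _ p) = Ideal.Quotient.mk _ p := fun p => rfl
  have hinj : Function.Injective (fun x => (pA x, pB x)) := by
    intro x y hxy
    obtain ⟨x, rfl⟩ := Ideal.Quotient.mk_surjective x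
    obtain ⟨y, rfl⟩ := Ideal.Quotient.mk_surjective y
    simp only [Prod.mk.injEq, hpA, hpB, Ideal.Quotient.mk_eq_mk_iff_sub_mem] at hxy
    rw [Ideal.Quotient.mk_eq_mk_iff_sub_mem]
    exact ⟨hxy.1, hxy.2⟩
  have hfin : Finite (PP 𝒪 ⧸ (I ⊓ J)) := Finite.of_injective _ hinj
  obtain ⟨hloc, htest⟩ := level_test hle hpow hfin
  have hmapA : ∀ σ, ((taut 𝒪 σ).map (Ideal.Quotient.mk (I ⊓ J))).map pA = rI σ := by
    intro σ; rw [hI1 σ]; ext i j; rfl
  have hmapB : ∀ σ, ((taut 𝒪 σ).map (Ideal.Quotient.mk (I ⊓ J))).map pB = rJ σ := by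
    intro σ; rw [hJ1 σ]; ext i j; rfl
  have hinj' : ∀ M N : Matrix (Fin 2) (Fin 2) (PP 𝒪 ⧸ (I ⊓ J)),
      M.map pA = N.map pA → M.map pB = N.map pB → M = N := by
    intro M N h h'
    ext i j
    apply hinj
    exact Prod.ext (congrFun (congrFun h i) j) (congrFun (congrFun h' i) j)
  let r' : GQ →* Matrix (Fin 2) (Fin 2) (PP 𝒪 ⧸ (I ⊓ J)) :=
    { toFun := fun σ => (taut 𝒪 σ).map (Ideal.Quotient.mk (I ⊓ J))
      map_one' := by
        apply hinj'
        · rw [hmapA, map_one, Matrix.map_one _ (map_zero pA) (map_one pA)]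
        · rw [hmapB, map_one, Matrix.map_one _ (map_zero pB) (map_one pB)]
      map_mul' := fun σ τ => by
        apply hinj'
        · rw [hmapA, map_mul, Matrix.map_mul, hmapA, hmapA]
        · rw [hmapB, map_mul, Matrix.map_mul, hmapB, hmapB] }
  have hpAloc : IsLocalHom (pA : (PP 𝒪 ⧸ (I ⊓ J)) →+* (PP 𝒪 ⧸ I)) :=
    IsLocalHom.of_surjective _ (Ideal.Quotient.factor_surjective inf_le_left)
  have hpBloc : IsLocalHom (pB : (PP 𝒪 ⧸ (I ⊓ J)) →+* (PP 𝒪 ⧸ J)) :=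
    IsLocalHom.of_surjective _ (Ideal.Quotient.factor_surjective inf_le_right)
  have hrA : mapMat (pA : (PP 𝒪 ⧸ (I ⊓ J)) →+* (PP 𝒪 ⧸ I)) r' = rI := by
    ext σ i j
    exact congrFun (congrFun (hmapA σ) i) j
  have hrB : mapMat (pB : (PP 𝒪 ⧸ (I ⊓ J)) →+* (PP 𝒪 ⧸ J)) r' = rJ := by
    ext σ i j
    exact congrFun (congrFun (hmapB σ) i) j
  obtain ⟨hcontI, hcondI⟩ := hI2.cond
  obtain ⟨hcontJ, hcondJ⟩ := hJ2.cond
  have := hI2.test.isArtinian
  have := hJ2.test.isArtinian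
  have hcont : MatCont r' := by
    apply matCont_of_trivial
    obtain ⟨L, hL, hL1⟩ := hcontI.exists_trivial
    obtain ⟨L', hL', hL1'⟩ := hcontJ.exists_trivial
    refine ⟨L ⊔ L', IntermediateField.finiteDimensional_sup L L', fun σ hσ => ?_⟩
    apply hinj'
    · have h3 := hL1 σ (fun x hx => hσ x ((le_sup_left : L ≤ L ⊔ L') hx))
      rw [Matrix.map_one _ (map_zero pA) (map_one pA), ← h3, ← hmapA σ]
      rfl
    · have h3 := hL1' σ (fun x hx => hσ x ((le_sup_right : L' ≤ L ⊔ L') hx))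
      rw [Matrix.map_one _ (map_zero pB) (map_one pB), ← h3, ← hmapB σ]
      rfl
  have htestI := hI2.test
  have htestJ := hJ2.test
  refine ⟨hloc, r', fun σ => rfl, ⟨htest, ?_, ?_, hcont, ?_⟩⟩
  · refine Reduces.of_map (pA : (PP 𝒪 ⧸ (I ⊓ J)) →+* (PP 𝒪 ⧸ I)) pA.commutes ?_
    have : (fun σ => (r' σ).map (pA : (PP 𝒪 ⧸ (I ⊓ J)) →+* (PP 𝒪 ⧸ I))) = ⇑rI := funext hmapA
    rw [this]
    exact hI2.red
  · have hA : (fun σ => (r' σ).map (pA : (PP 𝒪 ⧸ (I ⊓ J)) →+* (PP 𝒪 ⧸ I))) = ⇑rI := funext hmapA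
    have hB : (fun σ => (r' σ).map (pB : (PP 𝒪 ⧸ (I ⊓ J)) →+* (PP 𝒪 ⧸ J))) = ⇑rJ := funext hmapB
    have hcA : ∀ e : GQ →₀ 𝒪, lc e ⇑rI = (lc e ⇑r').map pA := by
      intro e
      rw [← hA]
      exact lc_map e (pA : (PP 𝒪 ⧸ (I ⊓ J)) →+* (PP 𝒪 ⧸ I)) pA.commutes r'
    have hcB : ∀ e : GQ →₀ 𝒪, lc e ⇑rJ = (lc e ⇑r').map pB := by
      intro e
      rw [← hB]
      exact lc_map e (pB : (PP 𝒪 ⧸ (I ⊓ J)) →+* (PP 𝒪 ⧸ J)) pB.commutes r'
    constructor
    · apply hinj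
      have a1 := hI2.rig.c01
      have a2 := hJ2.rig.c01
      rw [hcA, Matrix.map_apply] at a1
      rw [hcB, Matrix.map_apply] at a2
      exact Prod.ext (a1.trans (map_zero pA).symm) (a2.trans (map_zero pB).symm)
    · apply hinj
      have a1 := hI2.rig.c10
      have a2 := hJ2.rig.c10
      rw [hcA, Matrix.map_apply] at a1
      rw [hcB, Matrix.map_apply] at a2
      exact Prod.ext (a1.trans (map_zero pA).symm) (a2.trans (map_zero pB).symm)
    · apply hinj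
      have a1 := hI2.rig.d01
      have a2 := hJ2.rig.d01
      rw [hcA, Matrix.map_apply] at a1
      rw [hcB, Matrix.map_apply] at a2
      exact Prod.ext (a1.trans (map_one pA).symm) (a2.trans (map_one pB).symm)
  · refine h𝒟.of_fibreProduct htestI htestJ hC2.test htest f g pA pB hpAloc hpBloc ?_ hinj ?_ ?_ ?_
    · apply AlgHom.ext
      intro x
      obtain ⟨x, rfl⟩ := Ideal.Quotient.mk_surjective x
      rfl
    · intro a b hab
      obtain ⟨a, rfl⟩ := Ideal.Quotient.mk_surjective a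
      obtain ⟨b, rfl⟩ := Ideal.Quotient.mk_surjective b
      have h5 : Ideal.Quotient.mk (I ⊔ J) a = Ideal.Quotient.mk (I ⊔ J) b := hab
      rw [Ideal.Quotient.mk_eq_mk_iff_sub_mem] at h5
      obtain ⟨i, hi, j, hj, hij⟩ := Submodule.mem_sup.1 h5
      refine ⟨Ideal.Quotient.mk _ (a - i), ?_, ?_⟩
      · rw [hpA, Ideal.Quotient.mk_eq_mk_iff_sub_mem]
        simpa using I.neg_mem hi
      · rw [hpB, Ideal.Quotient.mk_eq_mk_iff_sub_mem]
        have : a - i - b = j := by linear_combination -hij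
        rw [this]
        exact hj
    · have hcondI' : 𝒟 (ofMat (mapMat _ r') (hcont.mapMat _ hpAloc)) := by
        have : ∀ (r₀ : GQ →* Matrix (Fin 2) (Fin 2) (PP 𝒪 ⧸ I)) (h₀ : MatCont r₀), r₀ = rI →
          𝒟 (ofMat r₀ h₀) := by
          rintro _ h₀ rfl
          exact hcondI
        exact this _ _ hrA
      obtain ⟨e⟩ := isEquiv_baseChange_ofMat _ hpAloc hcont
      exact h𝒟.of_isEquiv htestI ⟨e.symm⟩ hcondI'
    · have hcondJ' : 𝒟 (ofMat (mapMat _ r') (hcont.mapMat _ hpBloc)) := by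
        have : ∀ (r₀ : GQ →* Matrix (Fin 2) (Fin 2) (PP 𝒪 ⧸ J)) (h₀ : MatCont r₀), r₀ = rJ →
          𝒟 (ofMat r₀ h₀) := by
          rintro _ h₀ rfl
          exact hcondJ
        exact this _ _ hrB
      obtain ⟨e⟩ := isEquiv_baseChange_ofMat _ hpBloc hcont
      exact h𝒟.of_isEquiv htestJ ⟨e.symm⟩ hcondJ'

end family

end Fermat.Agent.DefRing
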