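import Fermat.Agent.DefRing.Universal
import Fermat.Agent.DefRing.Burnside

set_option autoImplicit false

namespace Fermat.Agent.DefRing

open IsLocalRing Matrix
open scoped TensorProduct

section typeD

variable {𝒪 : Type} [CommRing 𝒪] [IsLocalRing 𝒪] [Finite (ResidueField 𝒪)]
variable {rb : GQ → Matrix (Fin 2) (Fin 2) (ResidueField 𝒪)} {c d : GQ →₀ 𝒪} {𝒟 : Cond 𝒪}
variable {I : ℕ → Ideal (PP 𝒪)} (hI : LevelData rb c d 𝒟 I)
variable {R : Type} [CommRing R] [IsLocalRing R] [Algebra 𝒪 R] {Φ : PP 𝒪 →ₐ[𝒪] R}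
  (hΦ : LimitData I Φ)

include hI hΦ

omit [Finite (ResidueField 𝒪)] in
/-- the limit representation is of type `𝒟` -/
lemma limit_type (h𝒟 : GaloisRep.IsDeformationCondition 𝒪 𝒟) [IsNoetherianRing R]
    [IsAdicComplete (maximalIdeal R) R] (r : GQ →* Matrix (Fin 2) (Fin 2) R)
    (hr : MatCont r) (hrΦ : ∀ σ, r σ = (taut 𝒪 σ).map Φ) : 𝒟 (ofMat r hr) := by
  have hloc := limit_isLocalHom hI hΦ
  rw [h𝒟.iff_forall_surjective hloc (limit_surjective hI hΦ)]
  intro B _ _ _ hB q hq hqs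
  have := hB.isArtinian
  obtain ⟨n, hn⟩ := (isArtinianRing_iff_isNilpotent_maximalIdeal B).mp inferInstance
  have hkill : ∀ x ∈ maximalIdeal R ^ (n + 1), q x = 0 := by
    intro x hx
    have h1 : (maximalIdeal R ^ (n + 1)).map (q : R →+* B) ≤ maximalIdeal B ^ (n + 1) := by
      rw [Ideal.map_pow]
      exact Ideal.pow_right_mono (Ideal.map_le_iff_le_comap.mpr fun a ha =>
        Ideal.mem_comap.mpr (map_nonunit (q : R →+* B) a ha)) _
    have h2 := h1 (Ideal.mem_map_of_mem _ hx)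
    have h3 : maximalIdeal B ^ (n + 1) ≤ ⊥ := by
      rw [pow_succ, hn]
      exact Ideal.mul_le_left
    exact h3 h2
  obtain ⟨hlocI, r', hr1, hr2⟩ := hI.good (n + 1) (Nat.succ_pos n)
  have := hr2.test.isArtinian
  let e : (PP 𝒪 ⧸ I (n + 1)) →ₐ[𝒪] B := Ideal.Quotient.liftₐ (I (n + 1)) (q.comp Φ) (fun p hp =>
    hkill _ ((hΦ.mem_iff _ _).2 hp))
  have he : ∀ p, e (Ideal.Quotient.mk _ p) = q (Φ p) := fun p => rfl
  have heloc : IsLocalHom (e : (PP 𝒪 ⧸ I (n + 1)) →+* B) := isLocalHom_of_artinian _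
  have hmat : mapMat (e : (PP 𝒪 ⧸ I (n + 1)) →+* B) r' = mapMat (q : R →+* B) r := by
    ext σ i j
    rw [mapMat_apply, mapMat_apply, hr1, hrΦ]
    rfl
  obtain ⟨hcont, hcond⟩ := (hr2.push h𝒟 hB e heloc).cond
  have h1 := isEquiv_baseChange_ofMat (q : R →+* B) hq hr
  have h2 := isEquiv_ofMat_of_eq hmat hcont (hr.mapMat _ hq)
  exact h𝒟.of_isEquiv hB (isEquiv_trans h2 (isEquiv_symm h1)) hcond

/-- the universal property -/
lemma limit_universal (h𝒟 : GaloisRep.IsDeformationCondition 𝒪 𝒟) (hn : NormData rb c d)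
    (r : GQ →* Matrix (Fin 2) (Fin 2) R)
    (hr : MatCont r) (hrΦ : ∀ σ, r σ = (taut 𝒪 σ).map Φ) (hrred : Reduces rb r)
    (hrrig : IsRigid c d r) (A : Type) [CommRing A] [IsLocalRing A] [IsNoetherianRing A]
    [IsAdicComplete (maximalIdeal A) A] [Algebra 𝒪 A] [IsLocalHom (algebraMap 𝒪 A)]
    (hA : Function.Surjective (residue A ∘ algebraMap 𝒪 A)) (ρA : GaloisRepAdic A) (hρA : 𝒟 ρA)
    (rA : GQ →* Matrix (Fin 2) (Fin 2) A) (hrA : MatCont rA) (hred : Reduces rb rA)
    (hrig : IsRigid c d rA) (heq : ρA.IsEquiv (ofMat rA hrA)) :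
    ∃! φ : R →ₐ[𝒪] A, ∃ hφ : IsLocalHom (φ : R →+* A),
          ((ofMat r hr).baseChangeAlong (φ : R →+* A) hφ).IsEquiv ρA := by
  let g : PP 𝒪 →ₐ[𝒪] A := evalR (𝒪 := 𝒪) rA
  have hgmem : ∀ m, ∀ p ∈ resIdeal rb ^ m, g p ∈ maximalIdeal A ^ m := by
    intro m p hp
    have h1 : (resIdeal rb ^ m).map (g : PP 𝒪 →+* A) ≤ maximalIdeal A ^ m := by
      rw [Ideal.map_pow]
      refine Ideal.pow_right_mono (Ideal.map_le_iff_le_comap.mpr fun a ha =>
        Ideal.mem_comap.mpr ?_) _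
      exact (evalR_mem_maximalIdeal_iff hred a).2 ha
    exact h1 (Ideal.mem_map_of_mem _ hp)
  have hg : ∀ m p, p ∈ I m → g p ∈ maximalIdeal A ^ m := by
    intro m p hp
    rcases Nat.eq_zero_or_pos m with rfl | hm
    · rw [pow_zero, Ideal.one_eq_top]; exact Submodule.mem_top
    · have hnt : Nontrivial (A ⧸ maximalIdeal A ^ m) := Ideal.Quotient.nontrivial_iff.2 (by
        intro h
        have h1 := Ideal.pow_le_self (I := maximalIdeal A) hm.ne'
        rw [h] at h1
        exact (maximalIdeal.isMaximal A).ne_top (top_le_iff.1 h1))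
      let π : A →ₐ[𝒪] (A ⧸ maximalIdeal A ^ m) := Ideal.Quotient.mkₐ 𝒪 _
      have hπs : Function.Surjective π := Ideal.Quotient.mk_surjective
      have hlocQ : IsLocalRing (A ⧸ maximalIdeal A ^ m) :=
        IsLocalRing.of_surjective' (π : A →+* (A ⧸ maximalIdeal A ^ m)) hπs
      have hπloc : IsLocalHom (π : A →+* (A ⧸ maximalIdeal A ^ m)) := IsLocalHom.of_surjective _ hπs
      have hart : IsArtinianRing (A ⧸ maximalIdeal A ^ m) := by
        rw [isArtinianRing_iff_isNilpotent_maximalIdeal]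
        refine ⟨m, ?_⟩
        have h1 : maximalIdeal (A ⧸ maximalIdeal A ^ m) =
            (maximalIdeal A).map (π : A →+* (A ⧸ maximalIdeal A ^ m)) := by
          symm
          apply IsLocalRing.eq_maximalIdeal
          have hc := Ideal.map_eq_top_or_isMaximal_of_surjective (π : A →+* (A ⧸ maximalIdeal A ^ m)) hπs
            (maximalIdeal.isMaximal A)
          refine hc.resolve_left ?_
          intro htop
          have h2 : (maximalIdeal A).map (π : A →+* (A ⧸ maximalIdeal A ^ m)) ≤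
              maximalIdeal (A ⧸ maximalIdeal A ^ m) :=
            Ideal.map_le_iff_le_comap.mpr fun a ha =>
              Ideal.mem_comap.mpr (map_nonunit (π : A →+* (A ⧸ maximalIdeal A ^ m)) a ha)
          rw [htop] at h2
          exact (maximalIdeal.isMaximal _).ne_top (top_le_iff.1 h2)
        rw [h1, ← Ideal.map_pow]
        have h3 : (maximalIdeal A ^ m).map (Ideal.Quotient.mk (maximalIdeal A ^ m)) = ⊥ :=
          Ideal.map_quotient_self _
        exact h3
      have htest : GaloisRep.IsArtinianTestAlgebra 𝒪 (A ⧸ maximalIdeal A ^ m) := by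
        refine ⟨?_, ?_, hart⟩
        · have h4 : (π : A →+* (A ⧸ maximalIdeal A ^ m)).comp (algebraMap 𝒪 A) = algebraMap 𝒪 _ := by
            ext x; exact π.commutes x
          rw [← h4]
          infer_instance
        · intro y
          obtain ⟨z, rfl⟩ := residue_surjective y
          obtain ⟨a, rfl⟩ := hπs z
          obtain ⟨x, hx⟩ := exists_sub_mem_of_test hA a
          refine ⟨x, ?_⟩
          change residue _ (algebraMap 𝒪 _ x) = residue _ (π a)
          rw [eq_comm, ← sub_eq_zero, ← map_sub, residue_eq_zero_iff]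
          have := map_nonunit (π : A →+* (A ⧸ maximalIdeal A ^ m)) _ hx
          rw [map_sub] at this
          have h5 : (π : A →+* (A ⧸ maximalIdeal A ^ m)) (algebraMap 𝒪 A x) = algebraMap 𝒪 _ x := π.commutes x
          rwa [h5] at this
      have hgood : GoodRep rb c d 𝒟 (mapMat (π : A →+* (A ⧸ maximalIdeal A ^ m)) rA) := by
        refine ⟨htest, hred.map (π : A →+* (A ⧸ maximalIdeal A ^ m)) π.commutes, hrig.map (π : A →+* (A ⧸ maximalIdeal A ^ m)) π.commutes,
          hrA.mapMat _ hπloc, ?_⟩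
        have h6 := (h𝒟.iff_forall_surjective inferInstance hA ρA).1 hρA htest π hπloc hπs
        exact h𝒟.of_isEquiv htest (isEquiv_trans (isEquiv_baseChange _ hπloc heq)
          (isEquiv_baseChange_ofMat _ hπloc hrA)) h6
      have hker := hgood.goodIdeal_ker h𝒟
      have hev : evalR (𝒪 := 𝒪) (mapMat (π : A →+* (A ⧸ maximalIdeal A ^ m)) rA) = π.comp g := by
        symm
        apply evalR_unique
        intro σ i j
        rw [AlgHom.comp_apply, mapMat_apply, Matrix.map_apply]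
        change π (evalR (𝒪 := 𝒪) rA _) = _
        rw [evalR_X]
        rfl
      have hle := hI.least m _ hker (by
        intro p hp
        rw [RingHom.mem_ker, hev]
        change Ideal.Quotient.mk _ (g p) = 0
        rw [Ideal.Quotient.eq_zero_iff_mem]
        exact hgmem m p hp)
      have h7 := hle hp
      rw [RingHom.mem_ker, hev] at h7
      exact Ideal.Quotient.eq_zero_iff_mem.1 h7
  obtain ⟨φ, hφ1, hφ2⟩ := exists_limit_lift (maximalIdeal R) (maximalIdeal A) I Φ hΦ.mem_iff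
    hΦ.dense g hg
  have hφloc : IsLocalHom (φ : R →+* A) := by
    constructor
    intro a ha
    by_contra hcon
    have h1 : a ∈ maximalIdeal R ^ 1 := by rw [pow_one]; exact hcon
    have h2 := hφ2 1 a h1
    rw [pow_one] at h2
    exact h2 ha
  have hφmat : mapMat (φ : R →+* A) r = rA := by
    ext σ i j
    rw [mapMat_apply, hrΦ]
    change φ (Φ (MvPolynomial.X (σ, i, j))) = _
    rw [hφ1]
    exact evalR_X _ _ _ _
  refine ⟨φ, ⟨hφloc, ?_⟩, ?_⟩
  · exact isEquiv_trans (isEquiv_baseChange_ofMat _ hφloc hr)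
      (isEquiv_trans (isEquiv_ofMat_of_eq hφmat _ hrA) (isEquiv_symm heq))
  · rintro φ' ⟨hφ'loc, hφ'eq⟩
    have h1 : (ofMat (mapMat (φ' : R →+* A) r) (hr.mapMat _ hφ'loc)).IsEquiv (ofMat rA hrA) :=
      isEquiv_trans (isEquiv_symm (isEquiv_baseChange_ofMat _ hφ'loc hr))
        (isEquiv_trans hφ'eq heq)
    have h2 : mapMat (φ' : R →+* A) r = rA :=
      rigid_eq_of_isEquiv hn (hrred.map (φ' : R →+* A) φ'.commutes) hred
        (hrrig.map (φ' : R →+* A) φ'.commutes) hrig h1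
    have h3 : φ'.comp Φ = g := by
      apply evalR_unique
      intro σ i j
      rw [← h2, mapMat_apply, hrΦ]
      rfl
    apply AlgHom.ext
    intro x
    apply eq_of_forall_sub_mem (maximalIdeal A)
    intro m
    obtain ⟨p, hp⟩ := hΦ.dense m x
    have h4 : φ' x - φ x = φ' (x - Φ p) - φ (x - Φ p) := by
      have h5 : φ' (Φ p) = g p := by rw [← h3]; rfl
      rw [map_sub, map_sub, h5, hφ1]
      ring
    rw [h4]
    refine Ideal.sub_mem _ ?_ (hφ2 m _ hp)
    have h6 : (maximalIdeal R ^ m).map (φ' : R →+* A) ≤ maximalIdeal A ^ m := by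
      rw [Ideal.map_pow]
      exact Ideal.pow_right_mono (Ideal.map_le_iff_le_comap.mpr fun a ha =>
        Ideal.mem_comap.mpr (map_nonunit (φ' : R →+* A) a ha)) _
    exact h6 (Ideal.mem_map_of_mem _ hp)

end typeD

theorem nonempty_data
    (𝒪 : Type) [CommRing 𝒪] [IsDomain 𝒪] [IsDiscreteValuationRing 𝒪]
    [IsAdicComplete (IsLocalRing.maximalIdeal 𝒪) 𝒪] [Finite (IsLocalRing.ResidueField 𝒪)]
    (ρbar : ResidualGaloisRep (IsLocalRing.ResidueField 𝒪))
    (𝒟 : ∀ ⦃A : Type⦄ [CommRing A] [IsLocalRing A] [Algebra 𝒪 A], GaloisRepAdic A → Prop)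
    (habs : ρbar.IsAbsolutelyIrreducible)
    (h𝒟 : GaloisRep.IsDeformationCondition 𝒪 𝒟)
    (hbar : 𝒟 (GaloisRepAdic.ofResidualGaloisRep ρbar))
    (hfin : GaloisRep.TangentFinite 𝒪 ρbar 𝒟) :
    Nonempty (GaloisRep.DeformationRingData 𝒪 ρbar 𝒟) := by
  let b : Module.Basis (Fin 2) (ResidueField 𝒪) ρbar.V :=
    Module.finBasisOfFinrankEq (ResidueField 𝒪) ρbar.V ρbar.finrank_eq
  obtain ⟨c, d, hn⟩ := exists_normData (fun σ => LinearMap.toMatrix b b (ρbar.ρ σ))
    (span_eq_top_of_absIrr ρbar habs b)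
  have hres := goodIdeal_resIdeal ρbar b hn h𝒟 hbar
  obtain ⟨ϖ, hϖ⟩ := IsDiscreteValuationRing.exists_irreducible 𝒪
  have hT := finite_dual_goodRep ρbar b hn 𝒟 hfin
  obtain ⟨F, hF, hFI⟩ := exists_generators h𝒟 hT ϖ hϖ.maximalIdeal_eq
  obtain ⟨I, hI0, hIs, hI1, hIg, hIl, hgen⟩ := exists_levels h𝒟 hres F hF hFI
  have hI : LevelData (fun σ => LinearMap.toMatrix b b (ρbar.ρ σ)) c d 𝒟 I :=
    ⟨hI0, hI1, hIg, hIl⟩
  let x : Fin F.card → PP 𝒪 := fun i => (F.equivFin.symm i : PP 𝒪)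
  have hxr : Set.range x = (F : Set (PP 𝒪)) := by
    ext y
    constructor
    · rintro ⟨i, rfl⟩
      exact (F.equivFin.symm i).2
    · intro hy
      exact ⟨F.equivFin ⟨y, hy⟩, by simp [x]⟩
  obtain ⟨R, _, _, _, _, _, Φ, hΦ1, hΦ2⟩ := exists_limit_ring (𝒪 := 𝒪)
    (resIdeal (fun σ => LinearMap.toMatrix b b (ρbar.ρ σ))) inferInstance I hI0 hIs hI1 x
    (fun i => hF _ (F.equivFin.symm i).2) (fun m => by rw [hxr]; exact hgen m)
    (fun p => exists_sub_mem_resIdeal _ p)
  have hΦ : LimitData I Φ := ⟨hΦ1, hΦ2⟩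
  have hloc := limit_isLocalHom hI hΦ
  obtain ⟨r, hrΦ, hrred, hrrig, hr⟩ := exists_limit_rep hI hΦ
  refine ⟨{ R := R
            residue_surjective := limit_surjective hI hΦ
            absIrr := habs
            ρ := ofMat r hr
            isOfType := limit_type hI hΦ h𝒟 r hr hrΦ
            residual_isEquiv := residual_ofMat_isEquiv _ ρbar b r hr ((reduces_iff _ _).1 hrred)
            universal := ?_ }⟩
  intro A _ _ _ _ _ _ hA ρA hρA hequiv
  obtain ⟨rA, hrA, hred, hrig, heq⟩ := exists_rigid b hn ρA hequiv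
  exact limit_universal hI hΦ h𝒟 hn r hr hrΦ hrred hrrig A hA ρA hρA rA hrA hred hrig heq

end Fermat.Agent.DefRing
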