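import Fermat.Agent.DefRing.Tangent

set_option autoImplicit false

namespace Fermat.Agent.DefRing

open IsLocalRing Matrix
open scoped TensorProduct

section levels

variable {𝒪 : Type} [CommRing 𝒪] [IsLocalRing 𝒪]

lemma residueField_test (𝒪 : Type) [CommRing 𝒪] [IsLocalRing 𝒪] :
    GaloisRep.IsArtinianTestAlgebra 𝒪 (ResidueField 𝒪) := by
  refine ⟨inferInstanceAs (IsLocalHom (residue 𝒪)), ?_, inferInstance⟩
  intro y
  obtain ⟨x, rfl⟩ := residue_surjective y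
  obtain ⟨a, rfl⟩ := residue_surjective x
  exact ⟨a, rfl⟩

/-- the residual representation itself is good -/
lemma goodRep_residual (ρbar : ResidualGaloisRep (ResidueField 𝒪))
    (b : Module.Basis (Fin 2) (ResidueField 𝒪) ρbar.V) {c d : GQ →₀ 𝒪}
    (hn : NormData (fun σ => LinearMap.toMatrix b b (ρbar.ρ σ)) c d) {𝒟 : Cond 𝒪}
    (h𝒟 : GaloisRep.IsDeformationCondition 𝒪 𝒟)
    (hbar : 𝒟 (GaloisRepAdic.ofResidualGaloisRep ρbar)) :
    GoodRep (fun σ => LinearMap.toMatrix b b (ρbar.ρ σ)) c d 𝒟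
      (toMatRep (GaloisRepAdic.ofResidualGaloisRep ρbar) b) := by
  have hloc : IsLocalHom (algebraMap 𝒪 (ResidueField 𝒪)) := (residueField_test 𝒪).isLocalHom
  refine ⟨residueField_test 𝒪, ?_, ?_, toMatRep_cont _ _, ?_⟩
  · rw [reduces_iff]
    intro σ
    rw [toMatRep_apply]
    change (LinearMap.toMatrix b b (ρbar.ρ σ)).map _ = _
    congr 1
    funext x
    obtain ⟨a, rfl⟩ := residue_surjective x
    rw [ResidueField.map_residue]
    rfl
  · exact ⟨hn.c01, hn.c10, hn.d01⟩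
  · exact h𝒟.of_isEquiv (residueField_test 𝒪) (isEquiv_toMatRep _ _) hbar

lemma goodIdeal_resIdeal [Finite (ResidueField 𝒪)] (ρbar : ResidualGaloisRep (ResidueField 𝒪))
    (b : Module.Basis (Fin 2) (ResidueField 𝒪) ρbar.V) {c d : GQ →₀ 𝒪}
    (hn : NormData (fun σ => LinearMap.toMatrix b b (ρbar.ρ σ)) c d) {𝒟 : Cond 𝒪}
    (h𝒟 : GaloisRep.IsDeformationCondition 𝒪 𝒟)
    (hbar : 𝒟 (GaloisRepAdic.ofResidualGaloisRep ρbar)) :
    GoodIdeal (fun σ => LinearMap.toMatrix b b (ρbar.ρ σ)) c d 𝒟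
      (resIdeal (fun σ => LinearMap.toMatrix b b (ρbar.ρ σ))) :=
  (goodRep_residual ρbar b hn h𝒟 hbar).goodIdeal_ker h𝒟

/-- bounded index -/
lemma card_quotient_le {P : Type} [CommRing P] (𝔪 J : Ideal P) (F : Finset P)
    (hF : ∀ x ∈ F, x ∈ 𝔪) (hFJ : 𝔪 ≤ Ideal.span (F : Set P) ⊔ J) (m : ℕ) (hm : 𝔪 ^ m ≤ J)
    (hfin : Finite (P ⧸ 𝔪)) :
    Nat.card (P ⧸ J) ≤ Nat.card (P ⧸ 𝔪) ^ ∑ i ∈ Finset.range m, F.card ^ i := by
  classical
  let B := P ⧸ J
  let M : Ideal B := 𝔪.map (Ideal.Quotient.mk J)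
  let s : Finset B := F.image (Ideal.Quotient.mk J)
  have hs : Ideal.span (s : Set B) = M := by
    apply le_antisymm
    · rw [Ideal.span_le]
      intro y hy
      simp only [s, Finset.coe_image, Set.mem_image, Finset.mem_coe] at hy
      obtain ⟨x, hx, rfl⟩ := hy
      exact Ideal.mem_map_of_mem _ (hF x hx)
    · calc M ≤ (Ideal.span (F : Set P) ⊔ J).map (Ideal.Quotient.mk J) := Ideal.map_mono hFJ
        _ = Ideal.span (s : Set B) := by
          rw [Ideal.map_sup, Ideal.map_quotient_self, sup_bot_eq, Ideal.map_span,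
            Finset.coe_image]
  let f : P ⧸ 𝔪 →+* B ⧸ M := Ideal.quotientMap M (Ideal.Quotient.mk J) Ideal.le_comap_map
  have hf : Function.Surjective f := by
    intro y
    obtain ⟨y, rfl⟩ := Ideal.Quotient.mk_surjective y
    obtain ⟨p, rfl⟩ := Ideal.Quotient.mk_surjective y
    exact ⟨Ideal.Quotient.mk _ p, Ideal.quotientMap_mk⟩
  have hfinM : Finite (B ⧸ M) := Finite.of_surjective f hf
  have hMm : M ^ m = ⊥ := by
    rw [← le_bot_iff]
    change (𝔪.map (Ideal.Quotient.mk J)) ^ m ≤ ⊥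
    rw [← Ideal.map_pow, le_bot_iff, Ideal.map_eq_bot_iff_le_ker, Ideal.mk_ker]
    exact hm
  have h1 := Ideal.index_pow_le (I := M) s hs m
  rw [hMm] at h1
  have h2 : (⊥ : Ideal B).toAddSubgroup.index = Nat.card (P ⧸ J) := by
    change (⊥ : AddSubgroup B).index = _
    rw [AddSubgroup.index_bot]
  have h3 : M.toAddSubgroup.index ≤ Nat.card (P ⧸ 𝔪) := by
    change Nat.card (B ⧸ M) ≤ _
    exact Nat.card_le_card_of_surjective f hf
  have h4 : s.card ≤ F.card := Finset.card_image_le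
  have h5 : 0 < Nat.card (P ⧸ 𝔪) := Nat.card_pos
  rw [h2] at h1
  refine h1.trans ((Nat.pow_le_pow_left h3 _).trans (Nat.pow_le_pow_right h5 ?_))
  exact Finset.sum_le_sum fun i _ => Nat.pow_le_pow_left h4 i

/-- least good ideals at each level -/
lemma exists_least_good [Finite (ResidueField 𝒪)]
    {rb : GQ → Matrix (Fin 2) (Fin 2) (ResidueField 𝒪)} {c d : GQ →₀ 𝒪} {𝒟 : Cond 𝒪}
    (h𝒟 : GaloisRep.IsDeformationCondition 𝒪 𝒟) (hres : GoodIdeal rb c d 𝒟 (resIdeal rb))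
    (F : Finset (PP 𝒪)) (hF : ∀ x ∈ F, x ∈ resIdeal rb)
    (hFI : ∀ I, GoodIdeal rb c d 𝒟 I → resIdeal rb ≤ Ideal.span (F : Set (PP 𝒪)) ⊔ I)
    (m : ℕ) (hm : 0 < m) :
    ∃ I, GoodIdeal rb c d 𝒟 I ∧ resIdeal rb ^ m ≤ I ∧
      ∀ J, GoodIdeal rb c d 𝒟 J → resIdeal rb ^ m ≤ J → I ≤ J := by
  let S : Set ℕ := {n | ∃ J, GoodIdeal rb c d 𝒟 J ∧ resIdeal rb ^ m ≤ J ∧
    Nat.card (PP 𝒪 ⧸ J) = n}
  have hne : S.Nonempty := ⟨_, resIdeal rb, hres, Ideal.pow_le_self hm.ne', rfl⟩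
  have hfin : Finite (PP 𝒪 ⧸ resIdeal rb) := hres.finite
  have hbdd : BddAbove S := by
    refine ⟨Nat.card (PP 𝒪 ⧸ resIdeal rb) ^ ∑ i ∈ Finset.range m, F.card ^ i, ?_⟩
    rintro n ⟨J, hJ, hJm, rfl⟩
    exact card_quotient_le _ J F hF (hFI J hJ) m hJm hfin
  obtain ⟨I, hI, hIm, hIc⟩ := Nat.sSup_mem hne hbdd
  refine ⟨I, hI, hIm, fun J hJ hJm => ?_⟩
  have hIJ := hI.inf h𝒟 hJ
  have hc : Nat.card (PP 𝒪 ⧸ (I ⊓ J)) ≤ Nat.card (PP 𝒪 ⧸ I) := by
    rw [hIc]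
    exact le_csSup hbdd ⟨I ⊓ J, hIJ, le_inf hIm hJm, rfl⟩
  have hfinIJ := hIJ.finite
  have hfinI := hI.finite
  have hs : Function.Surjective (Ideal.Quotient.factor (inf_le_left : I ⊓ J ≤ I)) :=
    Ideal.Quotient.factor_surjective inf_le_left
  have hinj : Function.Injective (Ideal.Quotient.factor (inf_le_left : I ⊓ J ≤ I)) :=
    (Function.Surjective.bijective_of_nat_card_le hs hc).1
  intro p hp
  have h1 : Ideal.Quotient.mk (I ⊓ J) p = 0 := by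
    apply hinj
    rw [Ideal.Quotient.factor_mk, map_zero, Ideal.Quotient.eq_zero_iff_mem]
    exact hp
  exact (Ideal.Quotient.eq_zero_iff_mem.1 h1).2

/-- the filtration by least good ideals -/
theorem exists_levels [Finite (ResidueField 𝒪)]
    {rb : GQ → Matrix (Fin 2) (Fin 2) (ResidueField 𝒪)} {c d : GQ →₀ 𝒪} {𝒟 : Cond 𝒪}
    (h𝒟 : GaloisRep.IsDeformationCondition 𝒪 𝒟) (hres : GoodIdeal rb c d 𝒟 (resIdeal rb))
    (F : Finset (PP 𝒪)) (hF : ∀ x ∈ F, x ∈ resIdeal rb)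
    (hFI : ∀ I, GoodIdeal rb c d 𝒟 I → resIdeal rb ≤ Ideal.span (F : Set (PP 𝒪)) ⊔ I) :
    ∃ I : ℕ → Ideal (PP 𝒪), (∀ m, resIdeal rb ^ m ≤ I m) ∧
      (∀ m, I (m + 1) ⊔ resIdeal rb ^ m = I m) ∧ I 1 = resIdeal rb ∧
      (∀ m, 0 < m → GoodIdeal rb c d 𝒟 (I m)) ∧
      (∀ m J, GoodIdeal rb c d 𝒟 J → resIdeal rb ^ m ≤ J → I m ≤ J) ∧
      (∀ m, resIdeal rb ≤ Ideal.span (F : Set (PP 𝒪)) ⊔ I m) := by
  classical
  choose g hg1 hg2 hg3 using exists_least_good h𝒟 hres F hF hFI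
  let I : ℕ → Ideal (PP 𝒪) := fun m => if h : 0 < m then g m h else ⊤
  have hI0 : I 0 = ⊤ := rfl
  have hIs : ∀ m (h : 0 < m), I m = g m h := fun m h => dif_pos h
  have hgood : ∀ m, 0 < m → GoodIdeal rb c d 𝒟 (I m) := fun m hm => by
    rw [hIs m hm]; exact hg1 m hm
  have hpow : ∀ m, resIdeal rb ^ m ≤ I m := by
    intro m
    rcases Nat.eq_zero_or_pos m with rfl | hm
    · rw [hI0]; exact le_top
    · rw [hIs m hm]; exact hg2 m hm
  have hleast : ∀ m J, GoodIdeal rb c d 𝒟 J → resIdeal rb ^ m ≤ J → I m ≤ J := by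
    intro m J hJ hJm
    rcases Nat.eq_zero_or_pos m with rfl | hm
    · rw [pow_zero, Ideal.one_eq_top] at hJm
      exact le_top.trans hJm
    · rw [hIs m hm]; exact hg3 m hm J hJ hJm
  refine ⟨I, hpow, ?_, ?_, hgood, hleast, ?_⟩
  · intro m
    rcases Nat.eq_zero_or_pos m with rfl | hm
    · rw [pow_zero, Ideal.one_eq_top, hI0, sup_top_eq]
    · have hm1 := hgood (m + 1) (Nat.succ_pos m)
      apply le_antisymm
      · refine sup_le (hleast (m + 1) (I m) (hgood m hm)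
          ((Ideal.pow_le_pow_right (Nat.le_succ m)).trans (hpow m))) (hpow m)
      · refine hleast m _ ?_ le_sup_right
        exact hm1.of_le h𝒟 le_sup_left (sup_le hm1.le (Ideal.pow_le_self hm.ne'))
  · apply le_antisymm (hgood 1 one_pos).le
    have := hpow 1
    rwa [pow_one] at this
  · intro m
    rcases Nat.eq_zero_or_pos m with rfl | hm
    · rw [hI0, sup_top_eq]; exact le_top
    · exact hFI _ (hgood m hm)

end levels

end Fermat.Agent.DefRing
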