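import Fermat.Agent.DefRing.Burnside

set_option autoImplicit false

namespace Fermat.Agent.DefRing

open IsLocalRing Matrix
open scoped TensorProduct

section lc

variable {𝒪 : Type} [CommRing 𝒪]

/-- linear combination of the values of a matrix valued function on the Galois group -/
noncomputable def lc {A : Type} [CommRing A] [Algebra 𝒪 A] (c : GQ →₀ 𝒪)
    (r : GQ → Matrix (Fin 2) (Fin 2) A) : Matrix (Fin 2) (Fin 2) A :=
  Finsupp.linearCombination 𝒪 r c

lemma lc_apply {A : Type} [CommRing A] [Algebra 𝒪 A] (c : GQ →₀ 𝒪)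
    (r : GQ → Matrix (Fin 2) (Fin 2) A) (i j : Fin 2) :
    lc c r i j = ∑ σ ∈ c.support, algebraMap 𝒪 A (c σ) * r σ i j := by
  rw [lc, Finsupp.linearCombination_apply, Finsupp.sum, Matrix.sum_apply]
  refine Finset.sum_congr rfl fun σ _ => ?_
  rw [Matrix.smul_apply, Algebra.smul_def]

lemma lc_conj {A : Type} [CommRing A] [Algebra 𝒪 A] (c : GQ →₀ 𝒪)
    (r : GQ → Matrix (Fin 2) (Fin 2) A) (M N : Matrix (Fin 2) (Fin 2) A) :
    lc c (fun σ => M * r σ * N) = M * lc c r * N := by
  simp only [lc, Finsupp.linearCombination_apply, Finsupp.sum, Finset.mul_sum, Finset.sum_mul,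
    mul_smul_comm, smul_mul_assoc]

lemma lc_map {A B : Type} [CommRing A] [Algebra 𝒪 A] [CommRing B] [Algebra 𝒪 B]
    (c : GQ →₀ 𝒪) (φ : A →+* B) (hφ : ∀ a, φ (algebraMap 𝒪 A a) = algebraMap 𝒪 B a)
    (r : GQ → Matrix (Fin 2) (Fin 2) A) :
    lc c (fun σ => (r σ).map φ) = (lc c r).map φ := by
  ext i j
  rw [Matrix.map_apply, lc_apply, lc_apply, map_sum]
  refine Finset.sum_congr rfl fun σ _ => ?_
  rw [map_mul, hφ, Matrix.map_apply]

/-- rigidity condition -/
structure IsRigid {A : Type} [CommRing A] [Algebra 𝒪 A] (c d : GQ →₀ 𝒪)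
    (r : GQ → Matrix (Fin 2) (Fin 2) A) : Prop where
  c01 : lc c r 0 1 = 0
  c10 : lc c r 1 0 = 0
  d01 : lc d r 0 1 = 1

lemma IsRigid.map {A B : Type} [CommRing A] [Algebra 𝒪 A] [CommRing B] [Algebra 𝒪 B]
    {c d : GQ →₀ 𝒪} (φ : A →+* B) (hφ : ∀ a, φ (algebraMap 𝒪 A a) = algebraMap 𝒪 B a)
    {r : GQ → Matrix (Fin 2) (Fin 2) A} (h : IsRigid c d r) :
    IsRigid c d (fun σ => (r σ).map φ) := by
  constructor
  · rw [lc_map c φ hφ, Matrix.map_apply, h.c01, map_zero]
  · rw [lc_map c φ hφ, Matrix.map_apply, h.c10, map_zero]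
  · rw [lc_map d φ hφ, Matrix.map_apply, h.d01, map_one]

lemma IsRigid.of_map {A B : Type} [CommRing A] [Algebra 𝒪 A] [CommRing B] [Algebra 𝒪 B]
    {c d : GQ →₀ 𝒪} (φ : A →+* B) (hφ : ∀ a, φ (algebraMap 𝒪 A a) = algebraMap 𝒪 B a)
    (hinj : Function.Injective φ)
    {r : GQ → Matrix (Fin 2) (Fin 2) A} (h : IsRigid c d (fun σ => (r σ).map φ)) :
    IsRigid c d r := by
  constructor
  · apply hinj
    have := h.c01
    rwa [lc_map c φ hφ, Matrix.map_apply, ← map_zero φ] at this
  · apply hinj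
    have := h.c10
    rwa [lc_map c φ hφ, Matrix.map_apply, ← map_zero φ] at this
  · apply hinj
    have := h.d01
    rwa [lc_map d φ hφ, Matrix.map_apply, ← map_one φ] at this

end lc

section local_

variable {𝒪 : Type} [CommRing 𝒪] [IsLocalRing 𝒪]

/-- `r` reduces to the given residual matrices -/
def Reduces (rb : GQ → Matrix (Fin 2) (Fin 2) (ResidueField 𝒪)) {A : Type} [CommRing A]
    [IsLocalRing A] [Algebra 𝒪 A] (r : GQ → Matrix (Fin 2) (Fin 2) A) : Prop :=
  ∀ (σ : GQ) (i j : Fin 2) (a : 𝒪), residue 𝒪 a = rb σ i j →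
    r σ i j - algebraMap 𝒪 A a ∈ maximalIdeal A

lemma reduces_iff (rb : GQ → Matrix (Fin 2) (Fin 2) (ResidueField 𝒪)) {A : Type} [CommRing A]
    [IsLocalRing A] [Algebra 𝒪 A] [IsLocalHom (algebraMap 𝒪 A)]
    (r : GQ → Matrix (Fin 2) (Fin 2) A) :
    Reduces rb r ↔
      ∀ σ, (r σ).map (residue A) = (rb σ).map (ResidueField.map (algebraMap 𝒪 A)) := by
  constructor
  · intro h σ
    ext i j
    obtain ⟨a, ha⟩ := residue_surjective (rb σ i j)
    have := h σ i j a ha
    rw [Matrix.map_apply, Matrix.map_apply, ← ha, ResidueField.map_residue]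
    rw [← residue_eq_zero_iff, map_sub, sub_eq_zero] at this
    exact this
  · intro h σ i j a ha
    have := congrFun (congrFun (h σ) i) j
    rw [Matrix.map_apply, Matrix.map_apply, ← ha, ResidueField.map_residue] at this
    rw [← residue_eq_zero_iff, map_sub, sub_eq_zero]
    exact this

lemma Reduces.map {rb : GQ → Matrix (Fin 2) (Fin 2) (ResidueField 𝒪)} {A B : Type} [CommRing A]
    [IsLocalRing A] [Algebra 𝒪 A] [CommRing B] [IsLocalRing B] [Algebra 𝒪 B]
    (φ : A →+* B) (hφ : ∀ a, φ (algebraMap 𝒪 A a) = algebraMap 𝒪 B a) [IsLocalHom φ]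
    {r : GQ → Matrix (Fin 2) (Fin 2) A} (h : Reduces rb r) :
    Reduces rb (fun σ => (r σ).map φ) := by
  intro σ i j a ha
  have := map_nonunit φ _ (h σ i j a ha)
  rwa [map_sub, hφ] at this

lemma Reduces.of_map {rb : GQ → Matrix (Fin 2) (Fin 2) (ResidueField 𝒪)} {A B : Type} [CommRing A]
    [IsLocalRing A] [Algebra 𝒪 A] [CommRing B] [IsLocalRing B] [Algebra 𝒪 B]
    (φ : A →+* B) (hφ : ∀ a, φ (algebraMap 𝒪 A a) = algebraMap 𝒪 B a)
    {r : GQ → Matrix (Fin 2) (Fin 2) A} (h : Reduces rb (fun σ => (r σ).map φ)) :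
    Reduces rb r := by
  intro σ i j a ha
  have := h σ i j a ha
  change φ (r σ i j) - algebraMap 𝒪 B a ∈ maximalIdeal B at this
  rw [← hφ, ← map_sub, mem_maximalIdeal, mem_nonunits_iff] at this
  rw [mem_maximalIdeal, mem_nonunits_iff]
  exact fun hu => this (hu.map φ)

/-- normalisation data -/
structure NormData (rb : GQ → Matrix (Fin 2) (Fin 2) (ResidueField 𝒪)) (c d : GQ →₀ 𝒪) : Prop where
  c00 : lc c rb 0 0 = 1
  c01 : lc c rb 0 1 = 0
  c10 : lc c rb 1 0 = 0
  c11 : lc c rb 1 1 = 0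
  d01 : lc d rb 0 1 = 1

lemma Reduces.lc_sub_mem {rb : GQ → Matrix (Fin 2) (Fin 2) (ResidueField 𝒪)} {A : Type}
    [CommRing A] [IsLocalRing A] [Algebra 𝒪 A] [IsLocalHom (algebraMap 𝒪 A)]
    {r : GQ → Matrix (Fin 2) (Fin 2) A} (h : Reduces rb r) (c : GQ →₀ 𝒪) (i j : Fin 2) (a : 𝒪)
    (ha : residue 𝒪 a = lc c rb i j) : lc c r i j - algebraMap 𝒪 A a ∈ maximalIdeal A := by
  rw [← residue_eq_zero_iff, map_sub, sub_eq_zero]
  rw [reduces_iff] at h
  have h1 : residue A (lc c r i j) = ResidueField.map (algebraMap 𝒪 A) (lc c rb i j) := by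
    rw [lc_apply, lc_apply, map_sum, map_sum]
    refine Finset.sum_congr rfl fun σ _ => ?_
    rw [map_mul, map_mul]
    have := congrFun (congrFun (h σ) i) j
    rw [Matrix.map_apply, Matrix.map_apply] at this
    rw [this, ResidueField.algebraMap_eq, ResidueField.map_residue]
  rw [h1, ← ha, ResidueField.map_residue]

lemma exists_normData (rb : GQ → Matrix (Fin 2) (Fin 2) (ResidueField 𝒪))
    (h : Submodule.span (ResidueField 𝒪) (Set.range rb) = ⊤) : ∃ c d : GQ →₀ 𝒪, NormData rb c d := by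
  have h' : Submodule.span 𝒪 (Set.range rb) = ⊤ := by
    have := Submodule.restrictScalars_span 𝒪 (ResidueField 𝒪) residue_surjective (Set.range rb)
    rw [← this, h]
    rfl
  obtain ⟨c, hc⟩ := (Finsupp.mem_span_range_iff_exists_finsupp (R := 𝒪) (v := rb)
    (x := Matrix.single 0 0 1)).1 (h' ▸ Submodule.mem_top)
  obtain ⟨d, hd⟩ := (Finsupp.mem_span_range_iff_exists_finsupp (R := 𝒪) (v := rb)
    (x := Matrix.single 0 1 1)).1 (h' ▸ Submodule.mem_top)
  have hc' : lc c rb = Matrix.single 0 0 1 := by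
    rw [lc, Finsupp.linearCombination_apply, hc]
  have hd' : lc d rb = Matrix.single 0 1 1 := by
    rw [lc, Finsupp.linearCombination_apply, hd]
  exact ⟨c, d, by rw [hc']; simp, by rw [hc']; simp, by rw [hc']; simp, by rw [hc']; simp,
    by rw [hd']; simp⟩

/-- uniqueness of rigid representatives -/
theorem rigid_unique {rb : GQ → Matrix (Fin 2) (Fin 2) (ResidueField 𝒪)} {c d : GQ →₀ 𝒪}
    (hn : NormData rb c d) {A : Type}
    [CommRing A] [IsLocalRing A] [Algebra 𝒪 A] [IsLocalHom (algebraMap 𝒪 A)]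
    {r₁ r₂ : GQ → Matrix (Fin 2) (Fin 2) A} (h₁ : Reduces rb r₁) (h₂ : Reduces rb r₂)
    (g₁ : IsRigid c d r₁) (g₂ : IsRigid c d r₂) (M N : Matrix (Fin 2) (Fin 2) A)
    (hMN : M * N = 1) (h : ∀ σ, M * r₁ σ = r₂ σ * M) : r₁ = r₂ := by
  have hNM : N * M = 1 := mul_eq_one_comm.mp hMN
  have hlc : ∀ e : GQ →₀ 𝒪, M * lc e r₁ = lc e r₂ * M := by
    intro e
    have h3 : r₁ = fun σ => N * r₂ σ * M := by
      funext σ
      rw [Matrix.mul_assoc, ← h σ, ← Matrix.mul_assoc, hNM, Matrix.one_mul]
    have h4 := lc_conj e r₂ N M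
    rw [← h3] at h4
    rw [h4, ← Matrix.mul_assoc, ← Matrix.mul_assoc, hMN, Matrix.one_mul]
  have hc := hlc c
  have hd := hlc d
  have e01 := congrFun (congrFun hc 0) 1
  have e10 := congrFun (congrFun hc 1) 0
  have f01 := congrFun (congrFun hd 0) 1
  simp only [Matrix.mul_apply, Fin.sum_univ_two] at e01 e10 f01
  rw [g₁.c01, g₂.c01] at e01
  rw [g₁.c10, g₂.c10] at e10
  rw [g₁.d01, g₂.d01] at f01
  -- the units
  have a1 : ∀ {r : GQ → Matrix (Fin 2) (Fin 2) A}, Reduces rb r →
      lc c r 0 0 - 1 ∈ maximalIdeal A := fun hr => by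
    have := hr.lc_sub_mem c 0 0 1 (by rw [hn.c00, map_one])
    rwa [map_one] at this
  have a2 : ∀ {r : GQ → Matrix (Fin 2) (Fin 2) A}, Reduces rb r →
      lc c r 1 1 ∈ maximalIdeal A := fun hr => by
    have := hr.lc_sub_mem c 1 1 0 (by rw [hn.c11, map_zero])
    rwa [map_zero, sub_zero] at this
  have unit_of : ∀ x y : A, x ∈ maximalIdeal A → y - 1 ∈ maximalIdeal A → IsUnit (y - x) := by
    intro x y hx hy
    by_contra hcon
    have h5 : y - x ∈ maximalIdeal A := hcon
    have : (1 : A) ∈ maximalIdeal A := by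
      have := Ideal.add_mem _ (Ideal.sub_mem _ h5 hy) hx
      convert this using 1
      ring
    exact (Ideal.ne_top_iff_one _).1 (maximalIdeal.isMaximal A).ne_top this
  have M01 : M 0 1 = 0 := by
    have hu := unit_of _ _ (a2 h₁) (a1 h₂)
    have : (lc c r₂ 0 0 - lc c r₁ 1 1) * M 0 1 = 0 := by linear_combination -e01
    exact (hu.mul_right_eq_zero).1 this
  have M10 : M 1 0 = 0 := by
    have hu := unit_of _ _ (a2 h₂) (a1 h₁)
    have : (lc c r₁ 0 0 - lc c r₂ 1 1) * M 1 0 = 0 := by linear_combination e10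
    exact (hu.mul_right_eq_zero).1 this
  have M00 : M 0 0 = M 1 1 := by
    rw [M01] at f01
    linear_combination f01
  have hunit : IsUnit (M 0 0) := by
    have := congrFun (congrFun hMN 0) 0
    simp only [Matrix.mul_apply, Fin.sum_univ_two, M01, Matrix.one_apply_eq, zero_mul,
      add_zero] at this
    exact IsUnit.of_mul_eq_one _ this
  funext σ
  have h6 := h σ
  ext i j
  have h7 := congrFun (congrFun h6 i) j
  fin_cases i <;> fin_cases j <;>
    simp only [Matrix.mul_apply, Fin.sum_univ_two, M01, M10, ← M00, zero_mul, mul_zero,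
      add_zero, zero_add, Fin.zero_eta, Fin.mk_one, Fin.isValue] at h7 ⊢ <;>
    · rw [mul_comm] at h7
      exact hunit.mul_right_cancel h7

/-- existence of rigid representatives -/
theorem exists_rigid_conj {rb : GQ → Matrix (Fin 2) (Fin 2) (ResidueField 𝒪)} {c d : GQ →₀ 𝒪}
    (hn : NormData rb c d) {A : Type}
    [CommRing A] [IsLocalRing A] [IsAdicComplete (maximalIdeal A) A] [Algebra 𝒪 A]
    [IsLocalHom (algebraMap 𝒪 A)]
    (r : GQ → Matrix (Fin 2) (Fin 2) A) (h : Reduces rb r) :
    ∃ M N : Matrix (Fin 2) (Fin 2) A, M * N = 1 ∧ N * M = 1 ∧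
      M.map (residue A) = 1 ∧ N.map (residue A) = 1 ∧
      IsRigid c d (fun σ => M * r σ * N) := by
  -- residues of the entries of `X`
  have hX00 : residue A (lc c r 0 0) = 1 := by
    have := h.lc_sub_mem c 0 0 1 (by rw [hn.c00, map_one])
    rw [map_one, ← residue_eq_zero_iff, map_sub, map_one, sub_eq_zero] at this
    exact this
  have hX01 : residue A (lc c r 0 1) = 0 := by
    have := h.lc_sub_mem c 0 1 0 (by rw [hn.c01, map_zero])
    rw [map_zero, sub_zero, ← residue_eq_zero_iff] at this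
    exact this
  have hX10 : residue A (lc c r 1 0) = 0 := by
    have := h.lc_sub_mem c 1 0 0 (by rw [hn.c10, map_zero])
    rw [map_zero, sub_zero, ← residue_eq_zero_iff] at this
    exact this
  have hX11 : residue A (lc c r 1 1) = 0 := by
    have := h.lc_sub_mem c 1 1 0 (by rw [hn.c11, map_zero])
    rw [map_zero, sub_zero, ← residue_eq_zero_iff] at this
    exact this
  set a := lc c r 0 0 with ha
  set b := lc c r 0 1 with hb
  set c' := lc c r 1 0 with hc'
  set e := lc c r 1 1 with he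
  -- Hensel
  let f : Polynomial A := Polynomial.X ^ 2 + (Polynomial.C (-(a + e)) * Polynomial.X
    + Polynomial.C (a * e - b * c'))
  have hf : f.Monic := by
    apply Polynomial.monic_X_pow_add
    refine lt_of_le_of_lt Polynomial.degree_linear_le ?_
    norm_num
  have hfe : ∀ x, f.eval x = x ^ 2 - (a + e) * x + (a * e - b * c') := by
    intro x
    rw [show f = Polynomial.X ^ 2 + (Polynomial.C (-(a + e)) * Polynomial.X
      + Polynomial.C (a * e - b * c')) from rfl]
    rw [Polynomial.eval_add, Polynomial.eval_add, Polynomial.eval_mul, Polynomial.eval_C,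
      Polynomial.eval_C, Polynomial.eval_X, Polynomial.eval_pow, Polynomial.eval_X]
    ring
  have hres0 : f.eval 1 ∈ maximalIdeal A := by
    rw [← residue_eq_zero_iff, hfe]
    simp only [map_add, map_mul, map_sub, map_one, map_pow, hX00, hX01, hX10,
      hX11]
    ring
  have hder : f.derivative.eval 1 = 2 - (a + e) := by
    rw [show f = Polynomial.X ^ 2 + (Polynomial.C (-(a + e)) * Polynomial.X
      + Polynomial.C (a * e - b * c')) from rfl]
    rw [Polynomial.derivative_add, Polynomial.derivative_add, Polynomial.derivative_X_pow,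
      Polynomial.derivative_C, Polynomial.derivative_C_mul_X, Polynomial.eval_add,
      Polynomial.eval_add, Polynomial.eval_mul, Polynomial.eval_C, Polynomial.eval_C,
      Polynomial.eval_pow, Polynomial.eval_X, Polynomial.eval_zero]
    push_cast
    ring
  have hunit : IsUnit (Ideal.Quotient.mk (maximalIdeal A) (f.derivative.eval 1)) := by
    have : Ideal.Quotient.mk (maximalIdeal A) (f.derivative.eval 1) = 1 := by
      change residue A _ = 1
      rw [hder]
      simp only [map_sub, map_add, hX00, hX11, map_ofNat]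
      norm_num
    rw [this]
    exact isUnit_one
  obtain ⟨lam, hlam, hlam1⟩ := HenselianRing.is_henselian (I := maximalIdeal A) f hf 1 hres0 hunit
  have hlamres : residue A lam = 1 := by
    rw [← residue_eq_zero_iff, map_sub, map_one, sub_eq_zero] at hlam1
    exact hlam1
  have hroot : lam ^ 2 - (a + e) * lam + (a * e - b * c') = 0 := by
    have : f.eval lam = 0 := hlam
    rw [hfe] at this
    linear_combination this
  -- the unit `lam - e`
  have hu1 : IsUnit (lam - e) := by
    apply (residue_ne_zero_iff_isUnit _).1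
    rw [map_sub, hlamres, hX11, sub_zero]
    exact one_ne_zero
  obtain ⟨u, hu⟩ := hu1.exists_right_inv
  have hures : residue A u = 1 := by
    have := congrArg (residue A) hu
    rw [map_mul, map_sub, hlamres, hX11, sub_zero, one_mul, map_one] at this
    exact this
  have hdet : IsUnit (1 + b * c' * u ^ 2) := by
    apply (residue_ne_zero_iff_isUnit _).1
    rw [map_add, map_mul, map_mul, hX01, zero_mul, zero_mul, add_zero, map_one]
    exact one_ne_zero
  obtain ⟨v, hv⟩ := hdet.exists_right_inv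
  have hvres : residue A v = 1 := by
    have := congrArg (residue A) hv
    rw [map_mul, map_add, map_mul, map_mul, hX01, zero_mul, zero_mul, add_zero, map_one,
      one_mul] at this
    exact this
  -- the first change of basis
  let P : Matrix (Fin 2) (Fin 2) A := !![1, -(b * u); c' * u, 1]
  let Q : Matrix (Fin 2) (Fin 2) A := !![v, b * u * v; -(c' * u * v), v]
  have hPQ : P * Q = 1 := by
    ext i j
    fin_cases i <;> fin_cases j <;>
      simp [P, Q, Matrix.mul_apply, Fin.sum_univ_two] <;> linear_combination hv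
  have hQP : Q * P = 1 := mul_eq_one_comm.mp hPQ
  have hX : lc c r = !![a, b; c', e] := by
    ext i j
    fin_cases i <;> fin_cases j <;> rfl
  have hXP : lc c r * P = P * !![lam, 0; 0, a + e - lam] := by
    rw [hX]
    ext i j
    fin_cases i <;> fin_cases j <;>
      simp only [P, Matrix.mul_apply, Fin.sum_univ_two, Matrix.of_apply, Matrix.cons_val',
        Matrix.cons_val_zero, Matrix.cons_val_one, Matrix.cons_val_fin_one, Fin.zero_eta,
        Fin.mk_one, Fin.isValue]
    · linear_combination (lam - a) * hu - u * hroot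
    · linear_combination -b * hu
    · linear_combination -c' * hu
    · linear_combination -(lam - a) * hu + u * hroot
  have hPres : P.map (residue A) = 1 := by
    ext i j
    fin_cases i <;> fin_cases j <;> simp [P, hX01, hX10]
  have hQres : Q.map (residue A) = 1 := by
    ext i j
    fin_cases i <;> fin_cases j <;> simp [Q, hX01, hX10, hvres]
  have hres_of : ∀ X : Matrix (Fin 2) (Fin 2) A, (Q * X * P).map (residue A) =
      X.map (residue A) := by
    intro X
    rw [Matrix.map_mul, Matrix.map_mul, hPres, hQres, Matrix.one_mul, Matrix.mul_one]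
  -- rescaling
  set y := (Q * lc d r * P) 0 1 with hy
  have hyres : residue A y = 1 := by
    have h1 := congrFun (congrFun (hres_of (lc d r)) 0) 1
    rw [Matrix.map_apply, Matrix.map_apply] at h1
    rw [hy, h1]
    have := h.lc_sub_mem d 0 1 1 (by rw [hn.d01, map_one])
    rw [map_one, ← residue_eq_zero_iff, map_sub, map_one, sub_eq_zero] at this
    exact this
  have hyu : IsUnit y := by
    apply (residue_ne_zero_iff_isUnit _).1
    rw [hyres]
    exact one_ne_zero
  obtain ⟨z, hz⟩ := hyu.exists_right_inv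
  have hzres : residue A z = 1 := by
    have := congrArg (residue A) hz
    rw [map_mul, hyres, one_mul, map_one] at this
    exact this
  let D : Matrix (Fin 2) (Fin 2) A := !![1, 0; 0, y]
  let D' : Matrix (Fin 2) (Fin 2) A := !![1, 0; 0, z]
  have hDD' : D * D' = 1 := by
    ext i j
    fin_cases i <;> fin_cases j <;> simp [D, D', Matrix.mul_apply, Fin.sum_univ_two, hz]
  have hDres : D.map (residue A) = 1 := by
    ext i j
    fin_cases i <;> fin_cases j <;> simp [D, hyres]
  have hD'res : D'.map (residue A) = 1 := by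
    ext i j
    fin_cases i <;> fin_cases j <;> simp [D', hzres]
  have hMN : (D * Q) * (P * D') = 1 := by
    rw [Matrix.mul_assoc, ← Matrix.mul_assoc Q, hQP, Matrix.one_mul, hDD']
  have hQXP : Q * lc c r * P = !![lam, 0; 0, a + e - lam] := by
    rw [Matrix.mul_assoc, hXP, ← Matrix.mul_assoc, hQP, Matrix.one_mul]
  have hgen : ∀ g : GQ →₀ 𝒪, lc g (fun σ => (D * Q) * r σ * (P * D')) =
      D * (Q * lc g r * P) * D' := by
    intro g
    rw [lc_conj]
    simp only [Matrix.mul_assoc]
  refine ⟨D * Q, P * D', hMN, mul_eq_one_comm.mp hMN, ?_, ?_, ?_⟩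
  · rw [Matrix.map_mul, hDres, hQres, Matrix.one_mul]
  · rw [Matrix.map_mul, hD'res, hPres, Matrix.one_mul]
  · constructor
    · rw [hgen, hQXP]
      simp [D, D', Matrix.mul_apply, Fin.sum_univ_two]
    · rw [hgen, hQXP]
      simp [D, D', Matrix.mul_apply, Fin.sum_univ_two]
    · rw [hgen]
      generalize hY : Q * lc d r * P = Y at hy ⊢
      have : y = Y 0 1 := hy
      simp only [D, D', Matrix.mul_apply, Fin.sum_univ_two, Matrix.of_apply, Matrix.cons_val',
        Matrix.cons_val_zero, Matrix.cons_val_one, Matrix.cons_val_fin_one]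
      linear_combination hz - z * this

/-- every deformation has a rigid matrix representative -/
theorem exists_rigid {ρbar : ResidualGaloisRep (ResidueField 𝒪)}
    (b : Module.Basis (Fin 2) (ResidueField 𝒪) ρbar.V) {c d : GQ →₀ 𝒪}
    (hn : NormData (fun σ => LinearMap.toMatrix b b (ρbar.ρ σ)) c d) {A : Type}
    [CommRing A] [IsLocalRing A] [IsAdicComplete (maximalIdeal A) A] [Algebra 𝒪 A]
    [IsLocalHom (algebraMap 𝒪 A)] (ρ : GaloisRepAdic A)
    (h : ρ.residual.IsEquiv (ρbar.baseChangeAlong (ResidueField.map (algebraMap 𝒪 A)))) :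
    ∃ (r : GQ →* Matrix (Fin 2) (Fin 2) A) (hr : MatCont r),
      Reduces (fun σ => LinearMap.toMatrix b b (ρbar.ρ σ)) r ∧ IsRigid c d r ∧
      ρ.IsEquiv (ofMat r hr) := by
  obtain ⟨b', hb'⟩ := exists_basis_of_residual_isEquiv (ResidueField.map (algebraMap 𝒪 A)) ρbar b ρ h
  have hred : Reduces (fun σ => LinearMap.toMatrix b b (ρbar.ρ σ)) (toMatRep ρ b') :=
    (reduces_iff _ _).2 hb'
  obtain ⟨M, N, hMN, hNM, hM, hN, hrig⟩ := exists_rigid_conj hn (toMatRep ρ b') hred
  let r : GQ →* Matrix (Fin 2) (Fin 2) A :=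
    { toFun := fun σ => M * toMatRep ρ b' σ * N
      map_one' := by rw [map_one, Matrix.mul_one, hMN]
      map_mul' := fun σ τ => by
        rw [map_mul]
        calc M * (toMatRep ρ b' σ * toMatRep ρ b' τ) * N
            = M * toMatRep ρ b' σ * 1 * toMatRep ρ b' τ * N := by
              simp only [Matrix.mul_assoc, Matrix.one_mul]
          _ = M * toMatRep ρ b' σ * N * (M * toMatRep ρ b' τ * N) := by
              rw [← hNM]; simp only [Matrix.mul_assoc] }
  have hr0 : MatCont r := (toMatRep_cont ρ b').conj M N hMN (fun σ => rfl)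
  refine ⟨r, hr0, ?_, hrig, ?_⟩
  · rw [reduces_iff]
    intro σ
    change (M * toMatRep ρ b' σ * N).map (residue A) = _
    rw [Matrix.map_mul, Matrix.map_mul, hM, hN, Matrix.one_mul, Matrix.mul_one]
    exact hb' σ
  · obtain ⟨e₁⟩ := isEquiv_toMatRep ρ b'
    obtain ⟨e₂⟩ := isEquiv_ofMat_conj (toMatRep_cont ρ b') hr0 M N hMN (fun σ => rfl)
    exact ⟨e₁.trans e₂⟩

/-- isomorphic rigid matrix representations are equal -/
theorem rigid_eq_of_isEquiv {rb : GQ → Matrix (Fin 2) (Fin 2) (ResidueField 𝒪)} {c d : GQ →₀ 𝒪}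
    (hn : NormData rb c d) {A : Type}
    [CommRing A] [IsLocalRing A] [Algebra 𝒪 A] [IsLocalHom (algebraMap 𝒪 A)]
    {r₁ r₂ : GQ →* Matrix (Fin 2) (Fin 2) A} {hr₁ : MatCont r₁} {hr₂ : MatCont r₂}
    (h₁ : Reduces rb r₁) (h₂ : Reduces rb r₂)
    (g₁ : IsRigid c d r₁) (g₂ : IsRigid c d r₂)
    (h : (ofMat r₁ hr₁).IsEquiv (ofMat r₂ hr₂)) : r₁ = r₂ := by
  obtain ⟨M, N, hMN, -, hM⟩ := exists_conj_of_isEquiv h
  exact DFunLike.coe_injective (rigid_unique hn h₁ h₂ g₁ g₂ M N hMN hM)

end local_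

end Fermat.Agent.DefRing
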