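import Fermat.Agent.DefRing.Family

set_option autoImplicit false

namespace Fermat.Agent.DefRing

open IsLocalRing Matrix
open scoped TensorProduct

section tangent

variable {𝒪 : Type} [CommRing 𝒪] [IsLocalRing 𝒪]

/-- the algebra structure on the dual numbers used in the tangent space -/
@[reducible] noncomputable def dualAlg (𝒪 : Type) [CommRing 𝒪] [IsLocalRing 𝒪] :
    Algebra 𝒪 (DualNumber (ResidueField 𝒪)) :=
  ((algebraMap (ResidueField 𝒪) (DualNumber (ResidueField 𝒪))).comp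
      (algebraMap 𝒪 (ResidueField 𝒪))).toAlgebra

attribute [local instance 2000] dualAlg

lemma dual_algebraMap (a : 𝒪) :
    algebraMap 𝒪 (DualNumber (ResidueField 𝒪)) a = TrivSqZeroExt.inl (residue 𝒪 a) := rfl

lemma dual_test [Finite (ResidueField 𝒪)] :
    GaloisRep.IsArtinianTestAlgebra 𝒪 (DualNumber (ResidueField 𝒪)) := by
  have hfin : Finite (DualNumber (ResidueField 𝒪)) :=
    inferInstanceAs (Finite (ResidueField 𝒪 × ResidueField 𝒪))
  refine ⟨⟨fun a ha => ?_⟩, ?_, inferInstance⟩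
  · rw [dual_algebraMap, TrivSqZeroExt.isUnit_iff_isUnit_fst, TrivSqZeroExt.fst_inl] at ha
    exact isUnit_of_map_unit (residue 𝒪) a ha
  · intro y
    obtain ⟨x, rfl⟩ := residue_surjective y
    obtain ⟨a, ha⟩ := residue_surjective x.fst
    refine ⟨a, ?_⟩
    change residue _ (algebraMap 𝒪 _ a) = residue _ x
    rw [eq_comm, ← sub_eq_zero, ← map_sub, residue_eq_zero_iff, mem_maximalIdeal,
      mem_nonunits_iff, TrivSqZeroExt.isUnit_iff_isUnit_fst, dual_algebraMap, ha,
      TrivSqZeroExt.fst_sub, TrivSqZeroExt.fst_inl, sub_self]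
    exact not_isUnit_zero

/-- there are only finitely many rigid deformations to the dual numbers -/
lemma finite_dual_goodRep [Finite (ResidueField 𝒪)] (ρbar : ResidualGaloisRep (ResidueField 𝒪))
    (b : Module.Basis (Fin 2) (ResidueField 𝒪) ρbar.V) {c d : GQ →₀ 𝒪}
    (hn : NormData (fun σ => LinearMap.toMatrix b b (ρbar.ρ σ)) c d)
    (𝒟 : Cond 𝒪) (hfin : GaloisRep.TangentFinite 𝒪 ρbar 𝒟) :
    Finite {r : GQ →* Matrix (Fin 2) (Fin 2) (DualNumber (ResidueField 𝒪)) //
      GoodRep (fun σ => LinearMap.toMatrix b b (ρbar.ρ σ)) c d 𝒟 r} := by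
  have hloc : IsLocalHom (algebraMap 𝒪 (DualNumber (ResidueField 𝒪))) := dual_test.isLocalHom
  unfold GaloisRep.TangentFinite at hfin
  have hres : ∀ (r : GQ →* Matrix (Fin 2) (Fin 2) (DualNumber (ResidueField 𝒪))) (hr : MatCont r),
      Reduces (fun σ => LinearMap.toMatrix b b (ρbar.ρ σ)) r →
      (ofMat r hr).residual.IsEquiv (ρbar.baseChangeAlong
        ((IsLocalRing.residue (DualNumber (ResidueField 𝒪))).comp
          (algebraMap (ResidueField 𝒪) (DualNumber (ResidueField 𝒪))))) := by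
    intro r hr hred
    apply residual_ofMat_isEquiv _ ρbar b
    intro σ
    rw [((reduces_iff _ _).1 hred) σ]
    congr 1
    funext x
    obtain ⟨a, rfl⟩ := residue_surjective x
    rw [ResidueField.map_residue]
    rfl
  refine @Finite.of_injective _ _ hfin (fun r => Quotient.mk _
    ⟨ofMat r.1 r.2.cond.choose, r.2.cond.choose_spec, hres r.1 _ r.2.red⟩) ?_
  intro r₁ r₂ h
  have h' := Quotient.exact h
  have h'' : (ofMat r₁.1 r₁.2.cond.choose).IsEquiv (ofMat r₂.1 r₂.2.cond.choose) := h'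
  exact Subtype.ext (rigid_eq_of_isEquiv hn r₁.2.red r₂.2.red r₁.2.rig r₂.2.rig h'')

/-- separating elements of the cotangent space by maps to the dual numbers -/
lemma exists_dual_hom {rb : GQ → Matrix (Fin 2) (Fin 2) (ResidueField 𝒪)} {I : Ideal (PP 𝒪)}
    (hI : I ≤ resIdeal rb) (hsq : resIdeal rb ^ 2 ≤ I)
    (hm : ∀ a ∈ maximalIdeal 𝒪, algebraMap 𝒪 (PP 𝒪) a ∈ I) {q : PP 𝒪} (hq : q ∈ resIdeal rb)
    (hqI : q ∉ I) :
    ∃ φ : (PP 𝒪 ⧸ I) →ₐ[𝒪] DualNumber (ResidueField 𝒪), φ (Ideal.Quotient.mk I q) ≠ 0 := by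
  let B := PP 𝒪 ⧸ I
  let resB : B →ₐ[𝒪] ResidueField 𝒪 := Ideal.Quotient.liftₐ I (evalR (𝒪 := 𝒪) rb) (fun a ha => hI ha)
  have hresB : ∀ p, resB (Ideal.Quotient.mk I p) = evalR (𝒪 := 𝒪) rb p := fun p => rfl
  let ι : ResidueField 𝒪 →+* B := Ideal.Quotient.lift (maximalIdeal 𝒪) (algebraMap 𝒪 B)
    (fun a ha => Ideal.Quotient.eq_zero_iff_mem.2 (hm a ha))
  have hι : ∀ a, ι (residue 𝒪 a) = algebraMap 𝒪 B a := fun a => rfl
  have hresι : ∀ s, resB (ι s) = s := by
    intro s
    obtain ⟨a, rfl⟩ := residue_surjective s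
    rw [hι, AlgHom.commutes]
    rfl
  let _ : Algebra (ResidueField 𝒪) B := ι.toAlgebra
  have hsmul : ∀ (s : ResidueField 𝒪) (x : B), s • x = ι s * x := fun s x => rfl
  have hnot : Ideal.Quotient.mk I q ∉ Submodule.span (ResidueField 𝒪) {(1 : B)} := by
    intro h
    obtain ⟨s, hs⟩ := Submodule.mem_span_singleton.1 h
    rw [hsmul, mul_one] at hs
    have h1 := hresι s
    rw [hs, hresB] at h1
    have h2 : evalR (𝒪 := 𝒪) rb q = 0 := hq
    rw [h2] at h1
    rw [← h1, map_zero, eq_comm, Ideal.Quotient.eq_zero_iff_mem] at hs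
    exact hqI hs
  obtain ⟨f, hf, hf'⟩ := Submodule.exists_dual_map_eq_bot_of_notMem hnot inferInstance
  have hf1 : f 1 = 0 := by
    have : f 1 ∈ (Submodule.span (ResidueField 𝒪) {(1 : B)}).map f :=
      Submodule.mem_map_of_mem (Submodule.mem_span_singleton_self 1)
    rw [hf'] at this
    exact (Submodule.mem_bot _).1 this
  have hfι : ∀ s, f (ι s) = 0 := by
    intro s
    have : ι s = s • (1 : B) := by rw [hsmul, mul_one]
    rw [this, map_smul, hf1, smul_zero]
  have hmulzero : ∀ u u' : B, resB u = 0 → resB u' = 0 → u * u' = 0 := by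
    intro u u' hu hu'
    obtain ⟨p, rfl⟩ := Ideal.Quotient.mk_surjective u
    obtain ⟨p', rfl⟩ := Ideal.Quotient.mk_surjective u'
    rw [← map_mul, Ideal.Quotient.eq_zero_iff_mem]
    apply hsq
    rw [pow_two]
    exact Ideal.mul_mem_mul hu hu'
  have hfmul : ∀ x y : B, f (x * y) = resB x * f y + resB y * f x := by
    intro x y
    have hx : resB (x - ι (resB x)) = 0 := by rw [map_sub, hresι, sub_self]
    have hy : resB (y - ι (resB y)) = 0 := by rw [map_sub, hresι, sub_self]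
    have h0 := hmulzero _ _ hx hy
    have h3 : x * y = (resB x) • y + (resB y) • x - ι (resB x * resB y) := by
      rw [hsmul, hsmul, map_mul]
      linear_combination h0
    rw [h3, map_sub, map_add, map_smul, map_smul, hfι, sub_zero, smul_eq_mul, smul_eq_mul]
  let φ : B →ₐ[𝒪] DualNumber (ResidueField 𝒪) :=
    { toFun := fun x => TrivSqZeroExt.inl (resB x) + TrivSqZeroExt.inr (f x)
      map_one' := by
        rw [map_one, hf1]
        simp
      map_zero' := by simp
      map_add' := fun x y => by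
        rw [map_add, map_add]
        ext <;> simp
      map_mul' := fun x y => by
        rw [map_mul, hfmul]
        ext
        · simp
        · simp [mul_comm]
      commutes' := fun a => by
        rw [← hι, hresι, hfι, dual_algebraMap]
        simp }
  refine ⟨φ, fun h => hf ?_⟩
  have := congrArg TrivSqZeroExt.snd h
  change TrivSqZeroExt.snd (TrivSqZeroExt.inl (resB (Ideal.Quotient.mk I q)) +
    TrivSqZeroExt.inr (f (Ideal.Quotient.mk I q)) : DualNumber (ResidueField 𝒪)) = _ at this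
  simpa using this

/-- uniform finite generation of the maximal ideals of good quotients -/
theorem exists_generators [Finite (ResidueField 𝒪)]
    {rb : GQ → Matrix (Fin 2) (Fin 2) (ResidueField 𝒪)} {c d : GQ →₀ 𝒪} {𝒟 : Cond 𝒪}
    (h𝒟 : GaloisRep.IsDeformationCondition 𝒪 𝒟)
    (hT : Finite {r : GQ →* Matrix (Fin 2) (Fin 2) (DualNumber (ResidueField 𝒪)) //
      GoodRep rb c d 𝒟 r}) (ϖ : 𝒪) (hϖ : maximalIdeal 𝒪 = Ideal.span {ϖ}) :
    ∃ F : Finset (PP 𝒪), (∀ x ∈ F, x ∈ resIdeal rb) ∧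
      ∀ I, GoodIdeal rb c d 𝒟 I → resIdeal rb ≤ Ideal.span (F : Set (PP 𝒪)) ⊔ I := by
  classical
  have hfin : Finite (DualNumber (ResidueField 𝒪)) :=
    inferInstanceAs (Finite (ResidueField 𝒪 × ResidueField 𝒪))
  let T := {r : GQ →* Matrix (Fin 2) (Fin 2) (DualNumber (ResidueField 𝒪)) //
      GoodRep rb c d 𝒟 r}
  let Ψ : resIdeal rb → (T → DualNumber (ResidueField 𝒪)) :=
    fun p r => evalR (𝒪 := 𝒪) r.1 (p : PP 𝒪)
  have hrange : (Set.range Ψ).Finite := Set.toFinite _
  let S := Set.range Ψ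
  choose g hg using fun s : S => s.2
  have hfinS : Finite S := hrange
  let F0 : Set (PP 𝒪) := Set.range (fun s : S => ((g s : resIdeal rb) : PP 𝒪)) ∪
    {algebraMap 𝒪 (PP 𝒪) ϖ}
  have hF0 : F0.Finite := (Set.finite_range _).union (Set.finite_singleton _)
  have hϖm : algebraMap 𝒪 (PP 𝒪) ϖ ∈ resIdeal rb := by
    rw [algebraMap_mem_resIdeal_iff, hϖ]
    exact Ideal.mem_span_singleton_self ϖ
  have hF0m : ∀ x ∈ F0, x ∈ resIdeal rb := by
    rintro x (⟨s, rfl⟩ | rfl)
    · exact (g s).2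
    · exact hϖm
  refine ⟨hF0.toFinset, fun x hx => hF0m x (hF0.mem_toFinset.1 hx), fun I hI => ?_⟩
  rw [Set.Finite.coe_toFinset]
  -- the key step
  have hkey : resIdeal rb ≤ (Ideal.span F0 ⊔ I) ⊔ resIdeal rb ^ 2 := by
    intro p hp
    let s : S := ⟨Ψ ⟨p, hp⟩, ⟨p, hp⟩, rfl⟩
    set x : PP 𝒪 := ((g s : resIdeal rb) : PP 𝒪) with hx
    have hxm : x ∈ resIdeal rb := (g s).2
    have hxs : ∀ r : T, evalR (𝒪 := 𝒪) r.1 (p - x) = 0 := by
      intro r
      have h1 : Ψ (g s) = Ψ ⟨p, hp⟩ := hg s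
      have h2 := congrFun h1 r
      rw [map_sub, sub_eq_zero]
      exact h2.symm
    let I' := (I ⊔ Ideal.span {algebraMap 𝒪 (PP 𝒪) ϖ}) ⊔ resIdeal rb ^ 2
    have hI'le : I' ≤ resIdeal rb := by
      refine sup_le (sup_le hI.le ?_) ?_
      · rw [Ideal.span_singleton_le_iff_mem]
        exact hϖm
      · exact Ideal.pow_le_self two_ne_zero
    have hI' : GoodIdeal rb c d 𝒟 I' := hI.of_le h𝒟 (le_sup_left.trans le_sup_left) hI'le
    have hq : p - x ∈ I' := by
      by_contra hcon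
      obtain ⟨φ, hφ⟩ := exists_dual_hom (rb := rb) hI'le le_sup_right (by
        intro a ha
        rw [hϖ, Ideal.mem_span_singleton] at ha
        obtain ⟨a', rfl⟩ := ha
        rw [map_mul]
        exact Ideal.mul_mem_right _ _ ((le_sup_right.trans le_sup_left :
          Ideal.span {algebraMap 𝒪 (PP 𝒪) ϖ} ≤ I') (Ideal.mem_span_singleton_self _)))
        (Ideal.sub_mem _ hp hxm) hcon
      obtain ⟨hloc, r, h1, h2⟩ := hI'
      have hφloc : IsLocalHom (φ : (PP 𝒪 ⧸ I') →+* DualNumber (ResidueField 𝒪)) := by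
        constructor
        intro a ha
        by_contra hna
        have h3 : a ∈ maximalIdeal (PP 𝒪 ⧸ I') := hna
        have := h2.test.isArtinian
        obtain ⟨n, hn⟩ := (isArtinianRing_iff_isNilpotent_maximalIdeal (PP 𝒪 ⧸ I')).mp inferInstance
        have h4 := Ideal.pow_mem_pow h3 n
        rw [hn] at h4
        have h5 : a ^ n = 0 := h4
        have h6 := ha.pow n
        rw [← map_pow, h5, map_zero] at h6
        exact not_isUnit_zero h6
      have hgood := h2.push h𝒟 dual_test φ hφloc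
      have h7 := hxs ⟨_, hgood⟩
      apply hφ
      have h8 : evalR (𝒪 := 𝒪) (mapMat (φ : (PP 𝒪 ⧸ I') →+* DualNumber (ResidueField 𝒪)) r) =
          φ.comp (Ideal.Quotient.mkₐ 𝒪 I') := by
        symm
        apply evalR_unique
        intro σ i j
        rw [mapMat_apply, Matrix.map_apply, h1 σ]
        rfl
      rw [h8] at h7
      exact h7
    have hle2 : I' ≤ (Ideal.span F0 ⊔ I) ⊔ resIdeal rb ^ 2 := by
      refine sup_le (sup_le (le_sup_right.trans le_sup_left) ?_) le_sup_right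
      refine le_trans ?_ (le_sup_left.trans le_sup_left)
      exact Ideal.span_mono (by intro y hy; right; exact hy)
    have hx2 : x ∈ (Ideal.span F0 ⊔ I) ⊔ resIdeal rb ^ 2 := by
      refine (le_sup_left.trans le_sup_left : Ideal.span F0 ≤ _) ?_
      exact Ideal.subset_span (Or.inl ⟨s, rfl⟩)
    have := Ideal.add_mem _ (hle2 hq) hx2
    rwa [sub_add_cancel] at this
  have hind : ∀ n, resIdeal rb ≤ (Ideal.span F0 ⊔ I) ⊔ resIdeal rb ^ (n + 1) := by
    intro n
    induction n with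
    | zero => rw [zero_add, pow_one]; exact le_sup_right
    | succ n ih =>
      refine ih.trans (sup_le le_sup_left ?_)
      calc resIdeal rb ^ (n + 1) = resIdeal rb ^ n * resIdeal rb := pow_succ _ _
        _ ≤ resIdeal rb ^ n * ((Ideal.span F0 ⊔ I) ⊔ resIdeal rb ^ 2) := Ideal.mul_mono_right hkey
        _ = resIdeal rb ^ n * (Ideal.span F0 ⊔ I) ⊔ resIdeal rb ^ n * resIdeal rb ^ 2 :=
          Ideal.mul_sup _ _ _
        _ ≤ _ := by
          have e1 : resIdeal rb ^ n * (Ideal.span F0 ⊔ I) ≤ Ideal.span F0 ⊔ I := Ideal.mul_le_right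
          refine sup_le (e1.trans le_sup_left) ?_
          rw [← pow_add]
          exact le_sup_right
  obtain ⟨n, hn⟩ := hI.exists_pow_le
  refine (hind n).trans (sup_le le_rfl ?_)
  exact (Ideal.pow_le_pow_right (Nat.le_succ n)).trans (hn.trans le_sup_right)

end tangent

end Fermat.Agent.DefRing
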