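import Fermat.Agent.DefRing.Levels

set_option autoImplicit false

namespace Fermat.Agent.DefRing

open IsLocalRing Matrix
open scoped TensorProduct

section general

lemma eq_of_forall_sub_mem {A : Type} [CommRing A] (𝔞 : Ideal A) [IsHausdorff 𝔞 A] {x y : A}
    (h : ∀ m, x - y ∈ 𝔞 ^ m) : x = y := by
  rw [← sub_eq_zero]
  apply IsHausdorff.haus (I := 𝔞) inferInstance
  intro m
  rw [SModEq.zero, smul_eq_mul, Ideal.mul_top]
  exact h m

lemma isLocalHom_of_artinian {A B : Type} [CommRing A] [IsLocalRing A] [IsArtinianRing A]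
    [CommRing B] [Nontrivial B] (f : A →+* B) : IsLocalHom f := by
  constructor
  intro a ha
  by_contra hna
  have h3 : a ∈ maximalIdeal A := hna
  obtain ⟨n, hn⟩ := (isArtinianRing_iff_isNilpotent_maximalIdeal A).mp inferInstance
  have h4 := Ideal.pow_mem_pow h3 n
  rw [hn] at h4
  have h5 : a ^ n = 0 := h4
  have h6 := ha.pow n
  rw [← map_pow, h5, map_zero] at h6
  exact not_isUnit_zero h6

lemma isEquiv_symm {A : Type} [CommRing A] [IsLocalRing A] {ρ₁ ρ₂ : GaloisRepAdic A}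
    (h : ρ₁.IsEquiv ρ₂) : ρ₂.IsEquiv ρ₁ := by
  obtain ⟨e⟩ := h
  exact ⟨e.symm⟩

lemma isEquiv_trans {A : Type} [CommRing A] [IsLocalRing A] {ρ₁ ρ₂ ρ₃ : GaloisRepAdic A}
    (h : ρ₁.IsEquiv ρ₂) (h' : ρ₂.IsEquiv ρ₃) : ρ₁.IsEquiv ρ₃ := by
  obtain ⟨e⟩ := h
  obtain ⟨e'⟩ := h'
  exact ⟨e.trans e'⟩

lemma isEquiv_baseChange {A B : Type} [CommRing A] [IsLocalRing A] [CommRing B] [IsLocalRing B]
    (φ : A →+* B) (hφ : IsLocalHom φ) {ρ₁ ρ₂ : GaloisRepAdic A}
    (h : ρ₁.IsEquiv ρ₂) : (ρ₁.baseChangeAlong φ hφ).IsEquiv (ρ₂.baseChangeAlong φ hφ) := by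
  obtain ⟨e⟩ := h
  exact ⟨e.baseChangeAlong φ hφ⟩

lemma isEquiv_ofMat_of_eq {A : Type} [CommRing A] [IsLocalRing A]
    {r r' : GQ →* Matrix (Fin 2) (Fin 2) A} (h : r = r') (hr : MatCont r) (hr' : MatCont r') :
    (ofMat r hr).IsEquiv (ofMat r' hr') := by
  subst h
  exact ⟨GaloisRepAdic.Equiv.refl _⟩

end general

section universal

variable {𝒪 : Type} [CommRing 𝒪] [IsLocalRing 𝒪] [Finite (ResidueField 𝒪)]
variable {rb : GQ → Matrix (Fin 2) (Fin 2) (ResidueField 𝒪)} {c d : GQ →₀ 𝒪} {𝒟 : Cond 𝒪}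

/-- packaging of the levels -/
structure LevelData (rb : GQ → Matrix (Fin 2) (Fin 2) (ResidueField 𝒪)) (c d : GQ →₀ 𝒪)
    (𝒟 : Cond 𝒪) (I : ℕ → Ideal (PP 𝒪)) : Prop where
  pow_le : ∀ m, resIdeal rb ^ m ≤ I m
  one : I 1 = resIdeal rb
  good : ∀ m, 0 < m → GoodIdeal rb c d 𝒟 (I m)
  least : ∀ m J, GoodIdeal rb c d 𝒟 J → resIdeal rb ^ m ≤ J → I m ≤ J

/-- the comparison between `P` and the limit ring -/
structure LimitData (I : ℕ → Ideal (PP 𝒪)) {R : Type} [CommRing R] [IsLocalRing R]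
    [Algebra 𝒪 R] (Φ : PP 𝒪 →ₐ[𝒪] R) : Prop where
  mem_iff : ∀ m p, Φ p ∈ maximalIdeal R ^ m ↔ p ∈ I m
  dense : ∀ m (r : R), ∃ p, r - Φ p ∈ maximalIdeal R ^ m

variable {I : ℕ → Ideal (PP 𝒪)} (hI : LevelData rb c d 𝒟 I)
variable {R : Type} [CommRing R] [IsLocalRing R] [Algebra 𝒪 R] {Φ : PP 𝒪 →ₐ[𝒪] R}
  (hΦ : LimitData I Φ)

include hI hΦ

omit [Finite (ResidueField 𝒪)] in
lemma limit_isLocalHom : IsLocalHom (algebraMap 𝒪 R) := by
  constructor
  intro a ha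
  by_contra hcon
  have h1 : algebraMap 𝒪 (PP 𝒪) a ∈ resIdeal rb := (algebraMap_mem_resIdeal_iff rb a).2 hcon
  rw [← hI.one, ← hΦ.mem_iff, pow_one, AlgHom.commutes] at h1
  exact h1 ha

omit [Finite (ResidueField 𝒪)] in
lemma limit_surjective : Function.Surjective (residue R ∘ algebraMap 𝒪 R) := by
  intro y
  obtain ⟨r, rfl⟩ := residue_surjective y
  obtain ⟨p, hp⟩ := hΦ.dense 1 r
  obtain ⟨a, ha⟩ := exists_sub_mem_resIdeal rb p
  rw [← hI.one, ← hΦ.mem_iff, map_sub, AlgHom.commutes] at ha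
  refine ⟨a, ?_⟩
  have := Ideal.add_mem _ hp ha
  rw [sub_add_sub_cancel, pow_one, ← residue_eq_zero_iff, map_sub, sub_eq_zero] at this
  exact this.symm

omit [Finite (ResidueField 𝒪)] in
/-- relations which hold at all levels hold in the limit -/
lemma limit_eq_zero [IsHausdorff (maximalIdeal R) R] (p : PP 𝒪) (hp : ∀ m, 0 < m → p ∈ I m) :
    Φ p = 0 := by
  apply eq_of_forall_sub_mem (maximalIdeal R)
  intro m
  rw [sub_zero]
  rcases Nat.eq_zero_or_pos m with rfl | hm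
  · rw [pow_zero, Ideal.one_eq_top]; exact Submodule.mem_top
  · rw [hΦ.mem_iff]; exact hp m hm

omit [Finite (ResidueField 𝒪)] in
lemma exists_limit_rep [IsHausdorff (maximalIdeal R) R] :
    ∃ r : GQ →* Matrix (Fin 2) (Fin 2) R, (∀ σ, r σ = (taut 𝒪 σ).map Φ) ∧ Reduces rb r ∧
      IsRigid c d r ∧ MatCont r := by
  have hone : (taut 𝒪 1).map Φ = 1 := by
    ext i j
    rw [Matrix.map_apply, ← sub_eq_zero]
    have h1 : (1 : Matrix (Fin 2) (Fin 2) R) i j = Φ ((1 : Matrix (Fin 2) (Fin 2) (PP 𝒪)) i j) := by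
      simp only [Matrix.one_apply]
      split_ifs <;> simp
    rw [h1, ← map_sub]
    apply limit_eq_zero hI hΦ
    intro m hm
    obtain ⟨hloc, r, hr1, hr2⟩ := hI.good m hm
    rw [← Ideal.Quotient.eq_zero_iff_mem, map_sub, sub_eq_zero]
    have h2 := congrFun (congrFun (hr1 1) i) j
    rw [map_one, Matrix.map_apply] at h2
    rw [← h2]
    simp only [Matrix.one_apply]
    split_ifs <;> simp
  have hmul : ∀ σ τ, (taut 𝒪 (σ * τ)).map Φ = (taut 𝒪 σ).map Φ * (taut 𝒪 τ).map Φ := by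
    intro σ τ
    rw [← Matrix.map_mul]
    ext i j
    rw [Matrix.map_apply, Matrix.map_apply, ← sub_eq_zero, ← map_sub]
    apply limit_eq_zero hI hΦ
    intro m hm
    obtain ⟨hloc, r, hr1, hr2⟩ := hI.good m hm
    rw [← Ideal.Quotient.eq_zero_iff_mem, map_sub, sub_eq_zero]
    have h2 := congrFun (congrFun (hr1 (σ * τ)) i) j
    rw [map_mul, hr1 σ, hr1 τ, ← Matrix.map_mul, Matrix.map_apply, Matrix.map_apply] at h2
    exact h2.symm
  let r : GQ →* Matrix (Fin 2) (Fin 2) R :=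
    { toFun := fun σ => (taut 𝒪 σ).map Φ
      map_one' := hone
      map_mul' := hmul }
  have hrfun : (⇑r : GQ → Matrix (Fin 2) (Fin 2) R) = fun σ => (taut 𝒪 σ).map (Φ : PP 𝒪 →+* R) :=
    rfl
  have hlc : ∀ e : GQ →₀ 𝒪, lc e ⇑r = (lc e (taut 𝒪)).map Φ := by
    intro e
    rw [hrfun]
    exact lc_map e (Φ : PP 𝒪 →+* R) Φ.commutes (taut 𝒪)
  have hlcm : ∀ (e : GQ →₀ 𝒪) (J : Ideal (PP 𝒪)) (r' : GQ →* Matrix (Fin 2) (Fin 2) (PP 𝒪 ⧸ J)),
      (∀ σ, r' σ = (taut 𝒪 σ).map (Ideal.Quotient.mk J)) →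
      lc e ⇑r' = (lc e (taut 𝒪)).map (Ideal.Quotient.mk J) := by
    intro e J r' hr'
    have : ⇑r' = fun σ => (taut 𝒪 σ).map (Ideal.Quotient.mk J) := funext hr'
    rw [this]
    exact lc_map e (Ideal.Quotient.mk J) (fun a => rfl) (taut 𝒪)
  refine ⟨r, fun σ => rfl, ?_, ?_, ?_⟩
  · intro σ i j a ha
    change Φ (MvPolynomial.X (σ, i, j)) - algebraMap 𝒪 R a ∈ maximalIdeal R
    rw [← AlgHom.commutes Φ a, ← map_sub, ← pow_one (maximalIdeal R), hΦ.mem_iff, hI.one, resIdeal,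
      RingHom.mem_ker, map_sub, evalR_X, AlgHom.commutes, ResidueField.algebraMap_eq, ha, sub_self]
  · constructor
    · rw [hlc, Matrix.map_apply]
      apply limit_eq_zero hI hΦ
      intro m hm
      obtain ⟨hloc, r', hr1, hr2⟩ := hI.good m hm
      have h1 := hr2.rig.c01
      rw [hlcm c _ r' hr1, Matrix.map_apply] at h1
      exact Ideal.Quotient.eq_zero_iff_mem.1 h1
    · rw [hlc, Matrix.map_apply]
      apply limit_eq_zero hI hΦ
      intro m hm
      obtain ⟨hloc, r', hr1, hr2⟩ := hI.good m hm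
      have h1 := hr2.rig.c10
      rw [hlcm c _ r' hr1, Matrix.map_apply] at h1
      exact Ideal.Quotient.eq_zero_iff_mem.1 h1
    · rw [hlc, Matrix.map_apply, ← sub_eq_zero, ← map_one Φ, ← map_sub]
      apply limit_eq_zero hI hΦ
      intro m hm
      obtain ⟨hloc, r', hr1, hr2⟩ := hI.good m hm
      have h1 := hr2.rig.d01
      rw [hlcm d _ r' hr1, Matrix.map_apply] at h1
      rw [← Ideal.Quotient.eq_zero_iff_mem, map_sub, h1, map_one, sub_self]
  · intro n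
    rcases Nat.eq_zero_or_pos n with rfl | hn
    · refine ⟨⊥, inferInstance, fun σ _ i j => ?_⟩
      rw [pow_zero, Ideal.one_eq_top]
      exact Submodule.mem_top
    · obtain ⟨hloc, r', hr1, hr2⟩ := hI.good n hn
      obtain ⟨hcont, -⟩ := hr2.cond
      have := hr2.test.isArtinian
      obtain ⟨L, hL, h1⟩ := hcont.exists_trivial
      refine ⟨L, hL, fun σ hσ i j => ?_⟩
      have h2 := h1 σ hσ
      have h3 := congrFun (congrFun (hr1 σ) i) j
      rw [h2, Matrix.map_apply] at h3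
      have h4 : (r σ - 1) i j = Φ (taut 𝒪 σ i j - (1 : Matrix (Fin 2) (Fin 2) (PP 𝒪)) i j) := by
        rw [Matrix.sub_apply, map_sub]
        congr 1
        simp only [Matrix.one_apply]
        split_ifs <;> simp
      rw [h4, hΦ.mem_iff, ← Ideal.Quotient.eq_zero_iff_mem, map_sub, sub_eq_zero, ← h3]
      simp only [Matrix.one_apply]
      split_ifs <;> simp

end universal

end Fermat.Agent.DefRing
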